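import Mathlib
import Fermat.Agent.MultRed.Basic
import Fermat.Agent.EllTorsion.Mul

/-!
# Non-integral roots, and torsion points reducing to the origin

* the leading coefficient times non-integral roots is bounded by the largest coefficient;
* hence `|p| |x| ^ ((p - 1) / 2) ≤ 1` for the abscissa `x` of a point of order `p` reducing to
  the origin of a curve with integral coefficients;
* a polynomial with a unit coefficient and a small leading one has a non-integral root.
-/

set_option autoImplicit false

open Polynomial WeierstrassCurve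

namespace Fermat.Agent.Mazur.EndGame

open Fermat.Agent.MultRed

variable {L : Type*} [Field L] {Γ₀ : Type*} [LinearOrderedCommGroupWithZero Γ₀]
  {v : Valuation L Γ₀}

/-- The leading coefficient times any collection of roots of value at least one is bounded by
the coefficients. -/
lemma leadingCoeff_mul_roots_le : ∀ (s : Multiset L) (f : L[X]) (γ : Γ₀),
    (∀ i, v (f.coeff i) ≤ γ) → f ≠ 0 → s ≤ f.roots → (∀ r ∈ s, 1 ≤ v r) →
      v f.leadingCoeff * (s.map v).prod ≤ γ := by
  intro s
  induction s using Multiset.induction with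
  | empty => intro f γ hγ _ _ _; simpa using hγ f.natDegree
  | cons r s ih =>
    intro f γ hγ hf hle hbig
    obtain ⟨h, rfl⟩ : X - C r ∣ f :=
      dvd_iff_isRoot.2 (isRoot_of_mem_roots (Multiset.mem_of_le hle (Multiset.mem_cons_self r s)))
    have hr : 1 ≤ v r := hbig r (Multiset.mem_cons_self r s)
    have hr0 : r ≠ 0 := fun h0 => by rw [h0, map_zero] at hr; exact not_lt.2 hr zero_lt_one
    have hh : h ≠ 0 := right_ne_zero_of_mul hf
    have hcoeff : ∀ i, v ((C r * h).coeff i) ≤ γ := by
      intro i
      induction i with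
      | zero => simpa [mul_coeff_zero] using hγ 0
      | succ i ih =>
        have e : r * h.coeff (i + 1) = h.coeff i - ((X - C r) * h).coeff (i + 1) := by
          rw [sub_mul, coeff_sub, coeff_X_mul, coeff_C_mul]; ring
        rw [coeff_C_mul, e]
        refine v.map_sub_le ?_ (hγ (i + 1))
        rw [coeff_C_mul, map_mul] at ih
        exact le_trans (le_mul_of_one_le_left' hr) ih
    rw [roots_mul hf, roots_X_sub_C, Multiset.singleton_add, Multiset.cons_le_cons_iff] at hle
    have := ih (C r * h) γ hcoeff (mul_ne_zero (C_ne_zero.2 hr0) hh)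
      (by rwa [roots_C_mul h hr0]) fun x hx => hbig x (Multiset.mem_cons_of_mem hx)
    rw [leadingCoeff_mul, leadingCoeff_C, map_mul] at this
    rw [leadingCoeff_mul, leadingCoeff_X_sub_C, one_mul, Multiset.map_cons, Multiset.prod_cons]
    calc v h.leadingCoeff * (v r * (s.map v).prod)
        = v r * v h.leadingCoeff * (s.map v).prod := by ac_rfl
      _ ≤ γ := this

/-- A polynomial with a unit coefficient and small leading coefficient has a root of value
greater than one. -/
lemma exists_root_one_lt [IsAlgClosed L] {f : L[X]} {i : ℕ} (hi : v (f.coeff i) = 1)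
    (hlc : v f.leadingCoeff < 1) : ∃ r, f.IsRoot r ∧ 1 < v r := by
  by_contra hc
  push Not at hc
  have key : ∀ s : Multiset L, (∀ r ∈ s, v r ≤ 1) →
      ∀ j, v ((s.map fun r => X - C r).prod.coeff j) ≤ 1 := by
    intro s
    induction s using Multiset.induction with
    | empty => intro _ j; rcases j with _ | j <;> simp [coeff_one]
    | cons a s ih =>
      intro h j
      have ih' := ih fun r hr => h r (Multiset.mem_cons_of_mem hr)
      have ha := h a (Multiset.mem_cons_self a s)
      rw [Multiset.map_cons, Multiset.prod_cons, sub_mul, coeff_sub, coeff_C_mul]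
      refine v.map_sub_le ?_ (vmul_le_left ha (ih' j))
      rcases j with _ | j
      · simp
      · rw [coeff_X_mul]; exact ih' j
  have hsplit := (IsAlgClosed.splits f).eq_prod_roots
  have h1 := key f.roots (fun r hr => hc r (isRoot_of_mem_roots hr)) i
  rw [hsplit, coeff_C_mul, map_mul] at hi
  have : v f.leadingCoeff * v ((f.roots.map fun r => X - C r).prod.coeff i) < 1 :=
    lt_of_le_of_lt (mul_le_of_le_one_right zero_le h1) hlc
  exact this.ne hi

/-- The division polynomials of a curve with integral coefficients are integral. -/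
lemma vcoeff_preΨ'_le {W : WeierstrassCurve L} (hW : IntCoeffs v W) (n i : ℕ) :
    v ((W.preΨ' n).coeff i) ≤ 1 := by
  set W₀ : WeierstrassCurve v.integer :=
    ⟨⟨W.a₁, hW.a₁⟩, ⟨W.a₂, hW.a₂⟩, ⟨W.a₃, hW.a₃⟩, ⟨W.a₄, hW.a₄⟩, ⟨W.a₆, hW.a₆⟩⟩
  have h : W₀.map v.integer.subtype = W := rfl
  rw [← h, map_preΨ', coeff_map]
  exact ((W₀.preΨ' n).coeff i).2

variable [DecidableEq L]

/-- A point of odd prime order reducing to the origin is not too close to it. -/
theorem vx_pow_le {W : WeierstrassCurve L} (hW : IntCoeffs v W) {p : ℕ} (hp : p.Prime)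
    (hodd : Odd p) (hpL : (p : L) ≠ 0) {x y : L} {h : W.toAffine.Nonsingular x y}
    (hx : 1 < v x) (hpP : p • Affine.Point.some x y h = 0) :
    v (p : L) * v x ^ (p / 2) ≤ 1 := by
  set P : W.toAffine.Point := Affine.Point.some x y h with hP
  have hP1 : InE1 v W P := hx
  have hord : addOrderOf P = p :=
    haveI := Fact.mk hp
    addOrderOf_eq_prime hpP (Affine.Point.some_ne_zero h)
  have hk : ∀ k ∈ Finset.Icc 1 (p / 2), ∃ (xk yk : L) (hk : W.toAffine.Nonsingular xk yk),
      k • P = .some xk yk hk ∧ v x ≤ v xk := by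
    intro k hk
    rw [Finset.mem_Icc] at hk
    obtain ⟨hz, hz0⟩ := zPar_facts hW hP1
    obtain ⟨h1, h2, -⟩ := inE1_nsmul hW hP1 hz k
    rcases hkP : k • P with _ | ⟨xk, yk, hkk⟩
    · have : p ∣ k := hord ▸ addOrderOf_dvd_of_nsmul_eq_zero hkP
      have := Nat.le_of_dvd (by omega) this
      have := hp.two_le
      omega
    refine ⟨xk, yk, hkk, rfl, ?_⟩
    rw [hkP] at h1 h2
    have key : ∀ {a b : L} {hab : W.toAffine.Nonsingular a b}, 1 < v a →
        v (zPar W (Affine.Point.some a b hab)) ^ 2 * v a = 1 := by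
      intro a b hab ha
      have ha0 : v a ≠ 0 := (zero_lt_one.trans ha).ne'
      simp only [zPar, map_div₀, div_pow]
      rw [(vy_sq_eq hW hab.1 ha).1, div_mul_eq_mul_div, ← pow_succ, div_self (pow_ne_zero _ ha0)]
    have e1 := key (a := x) (b := y) (hab := h) hx
    have e2 := key (a := xk) (b := yk) (hab := hkk) h1
    refine le_of_not_gt fun hlt => ?_
    have hpos : 0 < v (zPar W P) := lt_of_le_of_ne zero_le
      (v.ne_zero_iff.2 (hz0 (Affine.Point.some_ne_zero h))).symm
    have : (1 : Γ₀) < 1 := by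
      calc (1 : Γ₀) = v (zPar W (Affine.Point.some xk yk hkk)) ^ 2 * v xk := e2.symm
        _ ≤ v (zPar W P) ^ 2 * v xk := mul_le_mul_left (pow_le_pow_left₀ zero_le h2 2) _
        _ < v (zPar W P) ^ 2 * v x := mul_lt_mul_of_pos_left hlt (pow_pos hpos 2)
        _ = 1 := e1
    exact lt_irrefl _ this
  choose xs ys hs hsP hsx using hk
  set g : {k // k ∈ Finset.Icc 1 (p / 2)} → L := fun k => xs k.1 k.2
  have hinj : Function.Injective g := by
    rintro ⟨i, hi⟩ ⟨j, hj⟩ hij
    have hb := Finset.mem_Icc.1 hi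
    have hb' := Finset.mem_Icc.1 hj
    have hp2 : 2 * (p / 2) < p := by obtain ⟨m, hm⟩ := hodd; omega
    rcases (Affine.Point.X_eq_iff (h₁ := hs i hi) (h₂ := hs j hj)).1 hij with e | e
    · rw [← hsP i hi, ← hsP j hj] at e
      exact Subtype.ext (nsmul_injOn_Iio_addOrderOf (by simp [hord]; omega)
        (by simp [hord]; omega) e)
    · rw [← hsP i hi, ← hsP j hj, eq_neg_iff_add_eq_zero, ← add_nsmul] at e
      have : p ∣ i + j := hord ▸ addOrderOf_dvd_of_nsmul_eq_zero e
      have := Nat.le_of_dvd (by omega) this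
      omega
  set f := W.preΨ' p with hf
  have hf0 : f ≠ 0 := W.preΨ'_ne_zero hpL
  set S := (Finset.Icc 1 (p / 2)).attach.image g with hS
  have hsub : S.val ≤ f.roots := by
    rw [Multiset.le_iff_subset S.nodup]
    intro r hr
    obtain ⟨⟨k, hk⟩, -, rfl⟩ := Finset.mem_image.1 (show r ∈ S from hr)
    rw [mem_roots hf0, IsRoot.def]
    refine EllTorsion.preΨ'_eval_eq_zero (hs k hk) hodd ?_
    rw [← hsP k hk, smul_comm, hpP, nsmul_zero]
  have hbig : ∀ r ∈ S, v x ≤ v r := by
    intro r hr
    obtain ⟨⟨k, hk⟩, -, rfl⟩ := Finset.mem_image.1 hr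
    exact hsx k hk
  have := leadingCoeff_mul_roots_le S.val f 1 (vcoeff_preΨ'_le hW p) hf0 hsub
    fun r hr => hx.le.trans (hbig r hr)
  rw [W.leadingCoeff_preΨ' hpL, if_neg (Nat.not_even_iff_odd.2 hodd)] at this
  refine le_trans (mul_le_mul_right ?_ _) this
  have hcard : S.card = p / 2 := by
    rw [hS, Finset.card_image_of_injective _ hinj, Finset.card_attach, Nat.card_Icc,
      Nat.add_sub_cancel]
  rw [← hcard]
  exact Finset.pow_card_le_prod S (fun r => v r) (v x) hbig

end Fermat.Agent.Mazur.EndGame
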