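import Mathlib
import Fermat.Agent.MultRed.Galois
import Fermat.Agent.FreyReducible.Places
import Fermat.Agent.Frobenius.Exists
import Fermat.Agent.EllTorsion.Galois
import Fermat.Agent.Mazur.EndGame.Gauss

/-!
# Rational points of finite order of an integral curve at a place
-/

set_option autoImplicit false

open WeierstrassCurve
open scoped WeierstrassCurve.Affine

namespace Fermat.Agent.Mazur.EndGame

open Fermat.Agent.MultRed

local notation "ℚ̄" => AlgebraicClosure ℚ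
set_option quotPrecheck false in
local notation "E(" W ")" => ((WeierstrassCurve.map W (Int.castRingHom ℚ))⁄ℚ̄).Point

variable {W : WeierstrassCurve ℤ} {A : ValuationSubring ℚ̄} {ℓ : ℕ}

lemma exists_place {ℓ : ℕ} (hℓ : ℓ.Prime) :
    ∃ A : ValuationSubring ℚ̄, A.LiesOverPrime ℓ :=
  Frobenius.exists_liesOverPrime _ hℓ

/-- A fixed point has rational coordinates. -/
lemma exists_rat_coords {P : E(W)} (hP : ∀ σ : ℚ̄ ≃ₐ[ℚ] ℚ̄, σ • P = P) {x y : ℚ̄}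
    {h : ((W.map (Int.castRingHom ℚ))⁄ℚ̄).Nonsingular x y} (he : P = .some x y h) :
    (∃ a : ℚ, (a : ℚ̄) = x) ∧ ∃ b : ℚ, (b : ℚ̄) = y := by
  have hxy : ∀ σ : ℚ̄ ≃ₐ[ℚ] ℚ̄, σ x = x ∧ σ y = y := fun σ => by
    obtain ⟨h', he'⟩ := EllTorsion.smul_some σ h
    exact Affine.Point.some.inj (he'.symm.trans (he ▸ hP σ))
  exact ⟨exists_rat_of_fixed fun σ => (hxy σ).1, exists_rat_of_fixed fun σ => (hxy σ).2⟩

lemma fixed_nsmul {P : E(W)} (hP : ∀ σ : ℚ̄ ≃ₐ[ℚ] ℚ̄, σ • P = P) (k : ℕ)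
    (σ : ℚ̄ ≃ₐ[ℚ] ℚ̄) : σ • (k • P) = k • P := by
  rw [Affine.Point.algEquiv_smul_def, map_nsmul]; exact congrArg (k • ·) (hP σ)

lemma isElliptic_map (hΔ : W.Δ ≠ 0) : (W.map (Int.castRingHom ℚ)).IsElliptic :=
  ⟨by rw [WeierstrassCurve.map_Δ, eq_intCast]; exact IsUnit.mk0 _ (Int.cast_ne_zero.2 hΔ)⟩

/-- A rational point of prime order at least five does not reduce to the origin. -/
theorem eq_zero_of_inE1 (hℓ : ℓ.Prime) (hA : A.LiesOverPrime ℓ) {p : ℕ} (hp : p.Prime)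
    (hp5 : 5 ≤ p) {Q : E(W)} (hQ : ∀ σ : ℚ̄ ≃ₐ[ℚ] ℚ̄, σ • Q = Q) (hQp : p • Q = 0)
    (h1 : InE1At W A Q) : Q = 0 := by
  by_cases hℓp : ℓ = p
  swap
  · exact inE1_eq_zero_of_nsmul hℓ hA h1
      (fun h => hℓp ((Nat.prime_dvd_prime_iff_eq hℓ hp).1 h)) hQp
  subst hℓp
  rcases Q with _ | ⟨x, y, h⟩
  · rfl
  exfalso
  have hx : 1 < A.valuation x := h1
  obtain ⟨⟨a, rfl⟩, -⟩ := exists_rat_coords hQ rfl
  obtain ⟨m, hm⟩ := hp.odd_of_ne_two (by omega)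
  have hb := vx_pow_le (intCoeffs_curveQbar (W := W) (A := A)) hp ⟨m, hm⟩
    (Nat.cast_ne_zero.2 hp.ne_zero) hx hQp
  have h1' := FreyReducible.one_le_valuation_prime_mul_rat hp hA a hx
  obtain ⟨j, hj⟩ : ∃ j, ℓ / 2 = j + 2 := ⟨ℓ / 2 - 2, by omega⟩
  rw [hj, pow_succ', ← mul_assoc] at hb
  exact absurd hb (not_le.2 (lt_of_lt_of_le (one_lt_pow₀ hx (Nat.succ_ne_zero j))
    (le_mul_of_one_le_left' h1')))

/-- Integral rationals are approximated by integers. -/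
lemma exists_int_approx (hℓ : ℓ.Prime) (hA : A.LiesOverPrime ℓ) {a : ℚ}
    (ha : A.valuation (a : ℚ̄) ≤ 1) (k : ℕ) :
    ∃ n : ℤ, A.valuation ((a : ℚ̄) - n) ≤ A.valuation (ℓ : ℚ̄) ^ k := by
  have hden : ¬ (ℓ : ℤ) ∣ (a.den : ℤ) := by
    intro h
    have h1 : A.valuation (((a.den : ℤ)) : ℚ̄) < 1 := vint_lt_one hA h
    have hnum : A.valuation (a.num : ℚ̄) = 1 := by
      refine vint_eq_one hℓ hA fun h' => ?_
      have := Nat.dvd_gcd (Int.natCast_dvd.1 h') (Int.natCast_dvd_natCast.1 h)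
      rw [a.reduced] at this
      exact hℓ.one_lt.ne' (Nat.dvd_one.1 this)
    rw [Rat.cast_def, map_div₀, hnum] at ha
    rw [Int.cast_natCast] at h1
    have h0 : 0 < A.valuation (a.den : ℚ̄) := lt_of_le_of_ne zero_le
      (A.valuation.ne_zero_iff.2 (Nat.cast_ne_zero.2 a.den_ne_zero)).symm
    rw [div_le_one₀ h0] at ha
    exact absurd h1 (not_lt.2 ha)
  obtain ⟨u, w, huw⟩ : IsCoprime (a.den : ℤ) ((ℓ : ℤ) ^ k) :=
    (((Nat.prime_iff_prime_int.1 hℓ).coprime_iff_not_dvd).2 hden).symm.pow_right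
  refine ⟨a.num * u, ?_⟩
  have hd1 : A.valuation ((a.den : ℤ) : ℚ̄) = 1 := vint_eq_one hℓ hA hden
  have hd0 : ((a.den : ℤ) : ℚ̄) ≠ 0 := by
    rw [Int.cast_natCast]; exact Nat.cast_ne_zero.2 a.den_ne_zero
  have e : (a : ℚ̄) - ((a.num * u : ℤ) : ℚ̄) =
      ((a.num * w : ℤ) : ℚ̄) * (ℓ : ℚ̄) ^ k / ((a.den : ℤ) : ℚ̄) := by
    have e0 : (a : ℚ̄) = (a.num : ℚ̄) / ((a.den : ℤ) : ℚ̄) := by
      rw [Rat.cast_def, Int.cast_natCast]
    have e1 : ((u * (a.den : ℤ) + w * (ℓ : ℤ) ^ k : ℤ) : ℚ̄) = 1 := by rw [huw, Int.cast_one]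
    push_cast at e1
    rw [e0, Int.cast_natCast]
    have hd0' : (a.den : ℚ̄) ≠ 0 := Nat.cast_ne_zero.2 a.den_ne_zero
    field_simp
    push_cast
    linear_combination -(a.num : ℚ̄) * e1
  rw [e, map_div₀, hd1, div_one, map_mul, map_pow]
  exact mul_le_of_le_one_left zero_le (vint_le _)

/-- **Counting.** A rational point of order `n` prime to `ℓ` all of whose multiples have
nonsingular reduction at `ℓ` has order at most `ℓ ^ 2 + 1`. -/
theorem pred_le_sq (hℓ : ℓ.Prime) (hA : A.LiesOverPrime ℓ) {Q : E(W)}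
    (hQ : ∀ σ : ℚ̄ ≃ₐ[ℚ] ℚ̄, σ • Q = Q) {n : ℕ} (hn : addOrderOf Q = n) (hℓn : ¬ ℓ ∣ n)
    (h0 : ∀ k : ℕ, W.InZeroComponentAt A (k • Q)) : n - 1 ≤ ℓ ^ 2 := by
  have := NeZero.mk hℓ.ne_zero
  have hkey : ∀ i : Fin (n - 1), ∃ (a b : ℚ) (h : ((W.map (Int.castRingHom ℚ))⁄ℚ̄).Nonsingular
      (a : ℚ̄) (b : ℚ̄)) (na nb : ℤ), (i.1 + 1) • Q = .some (a : ℚ̄) (b : ℚ̄) h ∧
        A.valuation (a : ℚ̄) ≤ 1 ∧
        A.valuation ((a : ℚ̄) - na) < 1 ∧ A.valuation ((b : ℚ̄) - nb) < 1 := by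
    intro i
    have hi := i.2
    rcases hk : (i.1 + 1) • Q with _ | ⟨x, y, h⟩
    · have := Nat.le_of_dvd (Nat.succ_pos _) (hn ▸ addOrderOf_dvd_of_nsmul_eq_zero hk)
      omega
    obtain ⟨⟨a, rfl⟩, ⟨b, rfl⟩⟩ := exists_rat_coords (fixed_nsmul hQ _) hk
    have hx : A.valuation (a : ℚ̄) ≤ 1 := by
      refine le_of_not_gt fun hgt => ?_
      have := inE1_eq_zero_of_nsmul hℓ hA (P := Affine.Point.some _ _ h) hgt hℓn
        (by rw [← hk, smul_comm, (by rw [← hn]; exact addOrderOf_nsmul_eq_zero Q : n • Q = 0),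
          nsmul_zero])
      exact Affine.Point.some_ne_zero h this
    have hy := vy_le (intCoeffs_curveQbar (W := W) (A := A)) h.1 hx
    obtain ⟨na, hna⟩ := exists_int_approx hℓ hA hx 1
    obtain ⟨nb, hnb⟩ := exists_int_approx hℓ hA hy 1
    rw [pow_one] at hna hnb
    exact ⟨a, b, h, na, nb, rfl, hx, hna.trans_lt (vq_lt_one hA), hnb.trans_lt (vq_lt_one hA)⟩
  choose a b h na nb hP ha hna hnb using hkey
  have hinj : Function.Injective fun i => ((na i : ZMod ℓ), (nb i : ZMod ℓ)) := by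
    intro i j hij
    simp only [Prod.mk.injEq, ZMod.intCast_eq_intCast_iff_dvd_sub] at hij
    have near : ∀ {s t : ℚ} {ns nt : ℤ}, A.valuation ((s : ℚ̄) - ns) < 1 →
        A.valuation ((t : ℚ̄) - nt) < 1 → (ℓ : ℤ) ∣ nt - ns →
        A.valuation ((s : ℚ̄) - t) < 1 := by
      intro s t ns nt hs ht hd
      rw [show (s : ℚ̄) - t = ((s : ℚ̄) - ns) - ((t : ℚ̄) - nt) - ((nt - ns : ℤ) : ℚ̄) by
        push_cast; ring]
      exact A.valuation.map_sub_lt (A.valuation.map_sub_lt hs ht) (vint_lt_one hA hd)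
    have hE0 : InE0 A.valuation (curveQbar W) (.some (a i : ℚ̄) (b i : ℚ̄) (h i)) := by
      rw [← hP i]; exact (inZeroComponentAt_iff _).1 (h0 _)
    have h1 : InE1At W A ((i.1 + 1) • Q - (j.1 + 1) • Q) := by
      rw [hP i, hP j]
      exact inE1_sub_of_near intCoeffs_curveQbar (ha i) hE0
        (near (hna i) (hna j) hij.1) (near (hnb i) (hnb j) hij.2)
    have := sub_eq_zero.1 (inE1_eq_zero_of_nsmul hℓ hA h1 hℓn (by
      have hnQ : n • Q = 0 := hn ▸ addOrderOf_nsmul_eq_zero Q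
      rw [nsmul_sub, smul_comm, hnQ, smul_comm n, hnQ, nsmul_zero, nsmul_zero, sub_zero]))
    have hi := i.2
    have hj := j.2
    have := nsmul_injOn_Iio_addOrderOf (x := Q) (by simp [hn]; omega) (by simp [hn]; omega) this
    exact Fin.ext (by omega)
  have := Fintype.card_le_of_injective _ hinj
  simpa [ZMod.card, pow_two] using this

end Fermat.Agent.Mazur.EndGame
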