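import Mathlib
import Fermat.Agent.MultRed.Basic
import Fermat.Agent.MultRed.Transport

/-!
# A minimal model has no point whose first four multiples reduce to the cusp

Over a valued field with uniformiser `π`: if `W` has integral coefficients, additive reduction,
and a point `P` such that `P, 2P, 3P, 4P` are nonzero, integral, with singular reduction, then a
translated model has `|aᵢ| ≤ |π| ^ i`, so that `W` is not minimal.
-/

set_option autoImplicit false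

open WeierstrassCurve

namespace Fermat.Agent.Mazur.EndGame

open Fermat.Agent.MultRed

variable {L : Type*} [Field L] {Γ₀ : Type*} [LinearOrderedCommGroupWithZero Γ₀]
  {v : Valuation L Γ₀}

variable (v) in
/-- The affine point reduces to a singular point. -/
def SingularRed (W : WeierstrassCurve L) (x y : L) : Prop :=
  v x ≤ 1 ∧ v (2 * y + W.a₁ * x + W.a₃) < 1 ∧
    v (W.a₁ * y - (3 * x ^ 2 + 2 * W.a₂ * x + W.a₄)) < 1

lemma singularRed_of_not_inE0 {W : WeierstrassCurve L} (hW : IntCoeffs v W) {x y : L}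
    {h : W.toAffine.Nonsingular x y} (hP : ¬ InE0 v W (.some x y h)) : SingularRed v W x y := by
  simp only [InE0, not_or, not_lt] at hP
  obtain ⟨hx, hY, hX⟩ := hP
  have hy := vy_le hW h.1 hx
  refine ⟨hx, lt_of_le_of_ne ?_ hY, lt_of_le_of_ne ?_ hX⟩
  · exact v.map_add_le (v.map_add_le (vmul_le_left (vofNat_le v 2) hy) (vmul_le_left hW.a₁ hx))
      hW.a₃
  · exact v.map_sub_le (vmul_le_left hW.a₁ hy) (v.map_add_le (v.map_add_le
      (vmul_le_left (vofNat_le v 3) (vpow_le 2 hx))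
      (vmul_le_left (vmul_le_left (vofNat_le v 2) hW.a₂) hx)) hW.a₄)

lemma vsmall_sq {a : L} (h : v (a ^ 2) < 1) : v a < 1 := by
  rw [map_pow] at h
  exact (pow_lt_one_iff_of_nonneg zero_le two_ne_zero).1 h

lemma vsmall_pow {a : L} {n : ℕ} (h : v a < 1) (hn : n ≠ 0) : v (a ^ n) < 1 := by
  rw [map_pow]; exact pow_lt_one₀ zero_le h hn

/-- In a model in which the singular point is at the origin the other singular reductions are
at the origin. -/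
lemma small_of_singularRed {W : WeierstrassCurve L} (hW : IntCoeffs v W) (hb₂ : v W.b₂ < 1)
    (h3 : v W.a₃ < 1) (h4 : v W.a₄ < 1) (h6 : v W.a₆ < 1) {x y : L}
    (he : W.toAffine.Equation x y) (hs : SingularRed v W x y) : v x < 1 ∧ v y < 1 := by
  obtain ⟨hx, hY, hX⟩ := hs
  have hy := vy_le hW he hx
  have he' := (Affine.equation_iff _ _).1 he
  have hn : ∀ (n : ℕ) [n.AtLeastTwo], v (OfNat.ofNat n : L) ≤ 1 := fun n => vofNat_le v n
  have hFY : v (2 * y + W.a₁ * x) < 1 := by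
    rw [show 2 * y + W.a₁ * x = (2 * y + W.a₁ * x + W.a₃) - W.a₃ by ring]
    exact v.map_sub_lt hY h3
  have e1 : v (4 * x ^ 3) < 1 := by
    have : 4 * x ^ 3 = (2 * y + W.a₁ * x) ^ 2 - W.b₂ * x ^ 2 + 4 * W.a₃ * y - 4 * W.a₄ * x -
        4 * W.a₆ := by
      simp only [WeierstrassCurve.b₂]; linear_combination -4 * he'
    rw [this]
    refine v.map_sub_lt (v.map_sub_lt (v.map_add_lt (v.map_sub_lt (vsmall_pow hFY two_ne_zero)
      (vmul_lt_left hb₂ (vpow_le 2 hx))) (vmul_lt_left (vmul_lt_right (hn 4) h3) hy))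
      (vmul_lt_left (vmul_lt_right (hn 4) h4) hx)) (vmul_lt_right (hn 4) h6)
  have e2 : v (6 * x ^ 2) < 1 := by
    have : 6 * x ^ 2 = W.a₁ * (2 * y + W.a₁ * x) - W.b₂ * x - 2 * W.a₄ -
        2 * (W.a₁ * y - (3 * x ^ 2 + 2 * W.a₂ * x + W.a₄)) := by
      simp only [WeierstrassCurve.b₂]; ring
    rw [this]
    exact v.map_sub_lt (v.map_sub_lt (v.map_sub_lt (vmul_lt_right hW.a₁ hFY)
      (vmul_lt_left hb₂ hx)) (vmul_lt_right (hn 2) h4)) (vmul_lt_right (hn 2) hX)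
  have hxs : v x < 1 := by
    by_cases h2 : v (2 : L) < 1
    · have ha1 : v W.a₁ < 1 := vsmall_sq (by
        rw [show W.a₁ ^ 2 = W.b₂ - 2 * (2 * W.a₂) by simp only [WeierstrassCurve.b₂]; ring]
        exact v.map_sub_lt hb₂ (vmul_lt_left h2 (vmul_le_left (hn 2) hW.a₂)))
      have h3x : v (x ^ 2) < 1 := by
        have : x ^ 2 = W.a₁ * y - 2 * (W.a₂ * x) - W.a₄ - 2 * x ^ 2 -
            (W.a₁ * y - (3 * x ^ 2 + 2 * W.a₂ * x + W.a₄)) := by ring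
        rw [this]
        exact v.map_sub_lt (v.map_sub_lt (v.map_sub_lt (v.map_sub_lt (vmul_lt_left ha1 hy)
          (vmul_lt_left h2 (vmul_le_left hW.a₂ hx))) h4) (vmul_lt_left h2 (vpow_le 2 hx))) hX
      exact vsmall_sq h3x
    · have h2' : v (2 : L) = 1 := le_antisymm (hn 2) (not_lt.1 h2)
      rw [show (4 : L) * x ^ 3 = 2 * 2 * x ^ 3 by ring, map_mul, map_mul, h2', one_mul, one_mul,
        map_pow] at e1
      exact (pow_lt_one_iff_of_nonneg zero_le (by norm_num)).1 e1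
  refine ⟨hxs, vsmall_sq ?_⟩
  rw [show y ^ 2 = x ^ 3 + W.a₂ * x ^ 2 + W.a₄ * x + W.a₆ - W.a₁ * y * x - W.a₃ * y by
    linear_combination he']
  exact v.map_sub_lt (v.map_sub_lt (v.map_add_lt (v.map_add_lt (v.map_add_lt
    (vsmall_pow hxs (by norm_num)) (vmul_lt_right hW.a₂ (vsmall_pow hxs two_ne_zero)))
    (vmul_lt_right hW.a₄ hxs)) h6) (vmul_lt_right (vmul_le_left hW.a₁ hy) hxs))
    (vmul_lt_left h3 hy)

/-- Small perturbations keep the model scalable. -/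
lemma scalable_perturb {W : WeierstrassCurve L} {γ : Γ₀} (hγ : γ ≤ 1) (h1 : v W.a₁ ≤ γ)
    (h2 : v W.a₂ ≤ γ ^ 2) (h3 : v W.a₃ ≤ γ ^ 3) (h4 : v W.a₄ ≤ γ ^ 4) (h6 : v W.a₆ ≤ γ ^ 6)
    {r s t : L} (hr : v r ≤ γ ^ 6) (hs : v s ≤ γ ^ 6) (ht : v t ≤ γ ^ 6) :
    let W' := (⟨1, r, s, t⟩ : VariableChange L) • W
    v W'.a₁ ≤ γ ∧ v W'.a₂ ≤ γ ^ 2 ∧ v W'.a₃ ≤ γ ^ 3 ∧ v W'.a₄ ≤ γ ^ 4 ∧ v W'.a₆ ≤ γ ^ 6 := by
  have hp : ∀ {i : ℕ}, γ ^ i ≤ 1 := fun {i} => pow_le_one₀ zero_le hγ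
  have hd : ∀ {i : ℕ}, i ≤ 6 → γ ^ 6 ≤ γ ^ i := fun h => pow_le_pow_right_of_le_one' hγ h
  have hr1 : v r ≤ 1 := hr.trans hp
  have hs1 : v s ≤ 1 := hs.trans hp
  have ht1 : v t ≤ 1 := ht.trans hp
  have g1 : γ ^ 6 ≤ γ := (hd (by norm_num : 1 ≤ 6)).trans (pow_one γ).le
  have hW1 : v W.a₁ ≤ 1 := h1.trans hγ
  have hW2 : v W.a₂ ≤ 1 := h2.trans hp
  have hW3 : v W.a₃ ≤ 1 := h3.trans hp
  have hW4 : v W.a₄ ≤ 1 := h4.trans hp
  have hn : ∀ (n : ℕ) [n.AtLeastTwo], v (OfNat.ofNat n : L) ≤ 1 := fun n => vofNat_le v n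
  have sr : ∀ {c : L} {i : ℕ}, i ≤ 6 → v c ≤ 1 → v (c * r) ≤ γ ^ i := fun hi hc =>
    (vmul_le_right hc hr).trans (hd hi)
  have ss : ∀ {c : L} {i : ℕ}, i ≤ 6 → v c ≤ 1 → v (c * s) ≤ γ ^ i := fun hi hc =>
    (vmul_le_right hc hs).trans (hd hi)
  have st : ∀ {c : L} {i : ℕ}, i ≤ 6 → v c ≤ 1 → v (c * t) ≤ γ ^ i := fun hi hc =>
    (vmul_le_right hc ht).trans (hd hi)
  simp only [variableChange_def, inv_one, Units.val_one, one_pow, one_mul]
  refine ⟨?_, ?_, ?_, ?_, ?_⟩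
  · exact v.map_add_le h1 ((vmul_le_right (hn 2) hs).trans g1)
  · refine v.map_sub_le (v.map_add_le (v.map_sub_le h2 ?_) (sr (by norm_num) (hn 3))) ?_
    · rw [mul_comm]; exact ss (by norm_num) hW1
    · rw [pow_two s]; exact ss (by norm_num) hs1
  · refine v.map_add_le (v.map_add_le h3 ?_) (st (by norm_num) (hn 2))
    rw [mul_comm]; exact sr (by norm_num) hW1
  · refine v.map_sub_le (v.map_add_le (v.map_sub_le (v.map_add_le (v.map_sub_le h4 ?_) ?_) ?_)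
      ?_) (st (by norm_num) (vmul_le_left (hn 2) hs1))
    · rw [mul_comm]; exact ss (by norm_num) hW3
    · rw [show 2 * r * W.a₂ = (2 * W.a₂) * r by ring]
      exact sr (by norm_num) (vmul_le_left (hn 2) hW2)
    · rw [show (t + r * s) * W.a₁ = W.a₁ * t + (W.a₁ * s) * r by ring]
      exact v.map_add_le (st (by norm_num) hW1) (sr (by norm_num) (vmul_le_left hW1 hs1))
    · rw [show 3 * r ^ 2 = (3 * r) * r by ring]
      exact sr (by norm_num) (vmul_le_left (hn 3) hr1)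
  · refine v.map_sub_le (v.map_sub_le (v.map_sub_le (v.map_add_le (v.map_add_le (v.map_add_le h6
      ?_) ?_) ?_) ?_) ?_) ?_
    · rw [mul_comm]; exact sr le_rfl hW4
    · rw [show r ^ 2 * W.a₂ = (r * W.a₂) * r by ring]; exact sr le_rfl (vmul_le_left hr1 hW2)
    · rw [pow_succ]; exact sr le_rfl (vpow_le 2 hr1)
    · rw [mul_comm]; exact st le_rfl hW3
    · rw [pow_two]; exact st le_rfl ht1
    · exact vmul_le_left (vmul_le_left (sr (c := 1) le_rfl (by simp) |> (by simpa using ·)) ht1)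
        hW1

section Main

variable [DecidableEq L] {W : WeierstrassCurve L}

lemma pointVC_some_of_eq (C : VariableChange L) {P : W.toAffine.Point} {x y : L}
    {h : W.toAffine.Nonsingular x y} (hP : P = .some x y h) :
    ∃ (x' y' : L) (h' : (C • W).toAffine.Nonsingular x' y'),
      pointVC C W (.some x' y' h') = P ∧ vcX C x' = x ∧ vcY C x' y' = y := by
  obtain ⟨P', hP'⟩ := pointVC_surjective C W P
  rcases P' with _ | ⟨x', y', h'⟩
  · exact absurd (hP'.trans hP).symm (Affine.Point.some_ne_zero _)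
  · have := hP'.trans hP
    rw [pointVC_some, Affine.Point.some.injEq] at this
    exact ⟨x', y', h', hP', this⟩

/-- The core computation, with the point at the origin. -/
lemma scalable_of_origin (hW : IntCoeffs v W) {π : L} (hπ1 : v π < 1)
    (hdisc : ∀ z, v z < 1 → v z ≤ v π) (hb₂ : v W.b₂ < 1) (h3 : v W.a₃ < 1)
    (h6 : W.a₆ = 0) {P : W.toAffine.Point} {h0 : W.toAffine.Nonsingular 0 0}
    (hP : P = .some 0 0 h0)
    (hmul : ∀ k ∈ ({2, 3, 4} : Finset ℕ), ∃ x y h, k • P = .some x y h ∧ v x < 1) :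
    ∃ s : L, v s ≤ 1 ∧
      let W' := (⟨1, 0, s, 0⟩ : VariableChange L) • W
      v W'.a₁ ≤ v π ∧ v W'.a₂ ≤ v π ^ 2 ∧ v W'.a₃ ≤ v π ^ 3 ∧ v W'.a₄ ≤ v π ^ 4 ∧
        v W'.a₆ ≤ v π ^ 6 := by
  -- the tangent at the origin is not vertical
  have ha3 : W.a₃ ≠ 0 := by
    intro h
    obtain ⟨x, y, hns, e, -⟩ := hmul 2 (by simp)
    rw [hP, two_nsmul, Affine.Point.add_self_of_Y_eq (by simp [Affine.negY, h])] at e
    exact Affine.Point.some_ne_zero hns e.symm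
  set s := W.a₄ / W.a₃ with hs
  set C : VariableChange L := ⟨1, 0, s, 0⟩ with hC
  set W₁ := C • W with hW₁
  have e1 : W₁.a₁ = W.a₁ + 2 * s := by simp [hW₁, hC, variableChange_def]
  have e2 : W₁.a₂ = W.a₂ - s * W.a₁ - s ^ 2 := by simp [hW₁, hC, variableChange_def]
  have e3 : W₁.a₃ = W.a₃ := by simp [hW₁, hC, variableChange_def]
  have e4 : W₁.a₄ = 0 := by
    simp [hW₁, hC, variableChange_def, hs, div_mul_cancel₀ _ ha3]
  have e6 : W₁.a₆ = 0 := by simp [hW₁, hC, variableChange_def, h6]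
  have eb : W₁.b₂ = W.b₂ := by simp [hW₁, hC, variableChange_b₂]
  obtain ⟨x₁, y₁, h₁, hP₁, hx₁, hy₁⟩ := pointVC_some_of_eq C hP
  obtain rfl : x₁ = 0 := by simpa [hC, vcX] using hx₁
  obtain rfl : y₁ = 0 := by simpa [hC, vcY] using hy₁
  set P₁ : W₁.toAffine.Point := .some 0 0 h₁ with hP₁d
  have hmul₁ : ∀ k ∈ ({2, 3, 4} : Finset ℕ), ∀ x y h, k • P₁ = .some x y h → v x < 1 := by
    intro k hk x y h e
    obtain ⟨x', y', h', e', hx'⟩ := hmul k hk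
    rw [← hP₁, ← map_nsmul, e, pointVC_some, Affine.Point.some.injEq] at e'
    rw [← e'.1] at hx'
    simpa [hC, vcX] using hx'
  have hne : ∀ k ∈ ({2, 3, 4} : Finset ℕ), k • P₁ ≠ 0 := by
    intro k hk e
    obtain ⟨x', y', h', e', -⟩ := hmul k hk
    rw [← hP₁, ← map_nsmul, e, map_zero] at e'
    exact Affine.Point.some_ne_zero h' e'.symm
  have ha3' : W₁.a₃ ≠ 0 := e3 ▸ ha3
  have hv3 : v W₁.a₃ < 1 := e3 ▸ h3
  -- doubling
  have hneg : W₁.toAffine.negY 0 0 = -W₁.a₃ := by simp [Affine.negY]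
  have hy0 : (0 : L) ≠ W₁.toAffine.negY 0 0 := by rw [hneg]; exact (neg_ne_zero.2 ha3').symm
  have hxy₂ : ¬((0 : L) = 0 ∧ (0 : L) = W₁.toAffine.negY 0 0) := fun h => hy0 h.2
  have hsl : W₁.toAffine.slope 0 0 0 0 = 0 := by
    rw [Affine.slope_of_Y_ne rfl hy0]; simp [e4]
  obtain ⟨h₂, hP₂⟩ : ∃ h₂, 2 • P₁ =
      Affine.Point.some (-W₁.a₂) (W₁.a₁ * W₁.a₂ - W₁.a₃) h₂ := by
    have h' := Affine.nonsingular_add h₁ h₁ hxy₂
    rw [hsl] at h'
    have ex : W₁.toAffine.addX 0 0 0 = -W₁.a₂ := by simp only [Affine.addX]; ring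
    have ey : W₁.toAffine.addY 0 0 0 0 = W₁.a₁ * W₁.a₂ - W₁.a₃ := by
      simp only [Affine.addY, Affine.negAddY, Affine.negY, ex]; ring
    rw [ex, ey] at h'
    refine ⟨h', ?_⟩
    rw [two_nsmul, hP₁d, Affine.Point.add_some hxy₂, Affine.Point.some.injEq]
    rw [hsl]
    exact ⟨ex, ey⟩
  have hv2 : v W₁.a₂ < 1 := by
    simpa using hmul₁ 2 (by simp) _ _ _ hP₂
  have hvs : v s ≤ 1 := by
    by_contra hc
    push Not at hc
    have h12 : v s < v (s ^ 2) := by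
      rw [map_pow, pow_two]; exact lt_mul_of_one_lt_left (zero_lt_one.trans hc) hc
    have : v W₁.a₂ = v (s ^ 2) := by
      rw [e2, ← Valuation.map_neg, show -(W.a₂ - s * W.a₁ - s ^ 2) =
        s ^ 2 + (s * W.a₁ - W.a₂) by ring]
      exact v.map_add_eq_of_lt_left (v.map_sub_lt ((vmul_le_left le_rfl hW.a₁).trans_lt h12)
        (hW.a₂.trans_lt (hc.trans h12)))
    exact absurd (this ▸ hv2) (not_lt.2 (hc.trans h12).le)
  have hv1 : v W₁.a₁ < 1 := by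
    refine vsmall_sq ?_
    rw [show W₁.a₁ ^ 2 = W₁.b₂ - 4 * W₁.a₂ by simp only [WeierstrassCurve.b₂]; ring, eb]
    exact v.map_sub_lt hb₂ (vmul_lt_right (vofNat_le v 4) hv2)
  refine ⟨s, hvs, ?_⟩
  show v W₁.a₁ ≤ v π ∧ v W₁.a₂ ≤ v π ^ 2 ∧ v W₁.a₃ ≤ v π ^ 3 ∧ v W₁.a₄ ≤ v π ^ 4 ∧
    v W₁.a₆ ≤ v π ^ 6
  have ha2 : W₁.a₂ ≠ 0 := by
    intro h
    refine hne 3 (by simp) ?_
    rw [show 3 = 2 + 1 from rfl, add_nsmul, one_nsmul, hP₂, hP₁d]
    exact Affine.Point.add_of_Y_eq (by simp [h]) (by simp [h])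
  -- tripling
  set u := W₁.a₃ / W₁.a₂ with hu
  have hu0 : u ≠ 0 := div_ne_zero ha3' ha2
  have hua : W₁.a₃ = u * W₁.a₂ := by rw [hu, div_mul_cancel₀ _ ha2]
  have hxy₃ : ¬(-W₁.a₂ = (0 : L) ∧ W₁.a₁ * W₁.a₂ - W₁.a₃ = W₁.toAffine.negY 0 0) :=
    fun h => neg_ne_zero.2 ha2 h.1
  have hsl₃ : W₁.toAffine.slope (-W₁.a₂) 0 (W₁.a₁ * W₁.a₂ - W₁.a₃) 0 = u - W₁.a₁ := by
    rw [Affine.slope_of_X_ne (neg_ne_zero.2 ha2), sub_zero, sub_zero,
      div_eq_iff (neg_ne_zero.2 ha2), hua]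
    ring
  obtain ⟨h₃, hP₃⟩ : ∃ h₃, 3 • P₁ = Affine.Point.some (u * (u - W₁.a₁))
      (-(u * (u * (u - W₁.a₁))) - W₁.a₃) h₃ := by
    have h' := Affine.nonsingular_add h₂ h₁ hxy₃
    rw [hsl₃] at h'
    have ex : W₁.toAffine.addX (-W₁.a₂) 0 (u - W₁.a₁) = u * (u - W₁.a₁) := by
      simp only [Affine.addX]; ring
    have ey : W₁.toAffine.addY (-W₁.a₂) 0 (W₁.a₁ * W₁.a₂ - W₁.a₃) (u - W₁.a₁) =
        -(u * (u * (u - W₁.a₁))) - W₁.a₃ := by
      simp only [Affine.addY, Affine.negAddY, Affine.negY, ex]; rw [hua]; ring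
    rw [ex, ey] at h'
    refine ⟨h', ?_⟩
    rw [show 3 = 2 + 1 from rfl, add_nsmul, one_nsmul, hP₂, hP₁d, Affine.Point.add_some hxy₃,
      Affine.Point.some.injEq]
    rw [hsl₃]
    exact ⟨ex, ey⟩
  have hvu : v u < 1 := by
    have := hmul₁ 3 (by simp) _ _ _ hP₃
    by_contra hc
    push Not at hc
    rw [map_mul, v.map_sub_eq_of_lt_left (hv1.trans_le hc)] at this
    exact absurd this (not_lt.2 (one_le_mul hc hc))
  have hua1 : v (u - W₁.a₁) ≤ v π := hdisc _ (v.map_sub_lt hvu hv1)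
  by_cases hcase : v W₁.a₂ ≤ v π ^ 2
  · refine ⟨hdisc _ hv1, hcase, ?_, by simp [e4], by simp [e6]⟩
    rw [hua, map_mul, pow_succ' (v π) 2]
    exact mul_le_mul' (hdisc _ hvu) hcase
  exfalso
  push Not at hcase
  have hπ0 : π ≠ 0 := by
    rintro rfl
    have := hdisc _ hvu
    rw [map_zero, le_zero_iff, v.zero_iff] at this
    exact hu0 this
  have hvπ : 0 < v π := lt_of_le_of_ne zero_le (v.ne_zero_iff.2 hπ0).symm
  have ha2π : v W₁.a₂ = v π := by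
    refine le_antisymm (hdisc _ hv2) ?_
    have h1 : ¬ v (W₁.a₂ / π) < 1 := fun h => by
      have := hdisc _ h
      rw [map_div₀, div_le_iff₀ hvπ, ← pow_two] at this
      exact absurd this (not_le.2 hcase)
    rw [map_div₀, not_lt, one_le_div₀ hvπ] at h1
    exact h1
  set x₃ := u * (u - W₁.a₁) with hx₃
  set y₃ := -(u * x₃) - W₁.a₃ with hy₃
  have hx30 : x₃ ≠ 0 := by
    intro h
    refine hne 4 (by simp) ?_
    rw [show 4 = 3 + 1 from rfl, add_nsmul, one_nsmul, hP₃, hP₁d]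
    exact Affine.Point.add_of_Y_eq h (by
      rw [hneg, show u * (u - W₁.a₁) = 0 from h]; ring)
  have hvu0 : 0 < v u := lt_of_le_of_ne zero_le (v.ne_zero_iff.2 hu0).symm
  have hvy3 : v y₃ = v u * v π := by
    rw [hy₃, sub_eq_add_neg, add_comm, v.map_add_eq_of_lt_left, Valuation.map_neg, hua, map_mul,
      ha2π]
    rw [Valuation.map_neg, Valuation.map_neg, hua, map_mul v u W₁.a₂, map_mul v u x₃, ha2π]
    refine mul_lt_mul_of_pos_left ?_ hvu0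
    rw [hx₃, map_mul]
    calc v u * v (u - W₁.a₁) ≤ v u * v π := mul_le_mul' le_rfl hua1
      _ < v π := mul_lt_of_lt_one_left hvπ hvu
  set μ := y₃ / x₃ with hμ
  have hμ1 : 1 ≤ v μ := by
    rw [hμ, map_div₀, hvy3, hx₃, map_mul, mul_div_mul_left _ _ hvu0.ne']
    have : 0 < v (u - W₁.a₁) := lt_of_le_of_ne zero_le (v.ne_zero_iff.2 (right_ne_zero_of_mul hx30)).symm
    exact (one_le_div₀ this).2 hua1
  have hxy₄ : ¬(x₃ = (0 : L) ∧ y₃ = W₁.toAffine.negY 0 0) := fun h => hx30 h.1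
  obtain ⟨x₄, y₄, h₄, hP₄, hx₄⟩ : ∃ x₄ y₄ h₄, 4 • P₁ = Affine.Point.some x₄ y₄ h₄ ∧
      x₄ = μ ^ 2 + (W₁.a₁ * μ - W₁.a₂ - x₃) := by
    refine ⟨_, _, _, by rw [show 4 = 3 + 1 from rfl, add_nsmul, one_nsmul, hP₃, hP₁d,
      Affine.Point.add_some hxy₄], ?_⟩
    rw [Affine.slope_of_X_ne hx30]
    simp only [Affine.addX, sub_zero, ← hμ]
    ring
  have h4small := hmul₁ 4 (by simp) _ _ _ hP₄
  rw [hx₄] at h4small
  have hμ2 : v μ ≤ v (μ ^ 2) := by rw [map_pow]; exact le_self_pow₀ hμ1 two_ne_zero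
  have hlt : v (W₁.a₁ * μ - W₁.a₂ - x₃) < v (μ ^ 2) := by
    have h1μ : (1 : Γ₀) ≤ v (μ ^ 2) := hμ1.trans hμ2
    refine v.map_sub_lt (v.map_sub_lt ?_ (hv2.trans_le h1μ)) ?_
    · rw [map_mul]
      exact (mul_lt_of_lt_one_left (zero_lt_one.trans_le hμ1) hv1).trans_le hμ2
    · refine lt_of_lt_of_le ?_ h1μ
      rw [hx₃]
      exact vmul_lt_left hvu (hua1.trans hπ1.le)
  rw [v.map_add_eq_of_lt_left hlt] at h4small
  exact absurd h4small (not_lt.2 (hμ1.trans hμ2))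

/-- **Tate's bound.** -/
theorem scalable_of_singularRed (hW : IntCoeffs v W) {π : L} (hπ1 : v π < 1)
    (hdisc : ∀ z, v z < 1 → v z ≤ v π) (hc₄ : v W.c₄ < 1)
    {P : W.toAffine.Point}
    (hmul : ∀ k ∈ ({1, 2, 3, 4} : Finset ℕ), ∃ x y h, k • P = .some x y h ∧ SingularRed v W x y) :
    ∃ r s t : L, v r ≤ 1 ∧ v s ≤ 1 ∧ v t ≤ 1 ∧
      let W' := (⟨1, r, s, t⟩ : VariableChange L) • W
      v W'.a₁ ≤ v π ∧ v W'.a₂ ≤ v π ^ 2 ∧ v W'.a₃ ≤ v π ^ 3 ∧ v W'.a₄ ≤ v π ^ 4 ∧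
        v W'.a₆ ≤ v π ^ 6 := by
  obtain ⟨x, y, h, hP, hx, hY, hX⟩ := hmul 1 (by simp)
  rw [one_nsmul] at hP
  have hy := vy_le hW h.1 hx
  have hn : ∀ (n : ℕ) [n.AtLeastTwo], v (OfNat.ofNat n : L) ≤ 1 := fun n => vofNat_le v n
  set C : VariableChange L := ⟨1, x, 0, y⟩ with hC
  set W₁ := C • W with hW₁
  have e1 : W₁.a₁ = W.a₁ := by simp [hW₁, hC, variableChange_def]
  have e2 : W₁.a₂ = W.a₂ + 3 * x := by simp [hW₁, hC, variableChange_def]
  have e3 : W₁.a₃ = 2 * y + W.a₁ * x + W.a₃ := by simp [hW₁, hC, variableChange_def]; ring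
  have e4 : W₁.a₄ = -(W.a₁ * y - (3 * x ^ 2 + 2 * W.a₂ * x + W.a₄)) := by
    simp [hW₁, hC, variableChange_def]; ring
  have e6 : W₁.a₆ = 0 := by
    have he := h.1
    rw [Affine.equation_iff_variableChange, Affine.equation_zero] at he
    exact he
  have h3 : v W₁.a₃ < 1 := by rw [e3]; exact hY
  have h4 : v W₁.a₄ < 1 := by rw [e4, Valuation.map_neg]; exact hX
  have hW₁' : IntCoeffs v W₁ := ⟨e1 ▸ hW.a₁,
    e2 ▸ v.map_add_le hW.a₂ (vmul_le_left (hn 3) hx), h3.le, h4.le, by simp [e6]⟩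
  have hb2 : v W₁.b₂ < 1 := by
    refine vsmall_sq ?_
    have hb4 : v W₁.b₄ < 1 := by
      rw [WeierstrassCurve.b₄]
      exact v.map_add_lt (vmul_lt_right (hn 2) h4) (vmul_lt_right hW₁'.a₁ h3)
    rw [show W₁.b₂ ^ 2 = W₁.c₄ + 24 * W₁.b₄ by rw [WeierstrassCurve.c₄]; ring]
    refine v.map_add_lt ?_ (vmul_lt_right (hn 24) hb4)
    simpa [hW₁, hC, variableChange_c₄] using hc₄
  obtain ⟨x', y', h', hP', hx', hy'⟩ := pointVC_some_of_eq C hP
  obtain rfl : x' = 0 := by simpa [hC, vcX] using hx'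
  obtain rfl : y' = 0 := by simpa [hC, vcY] using hy'
  have hmul₁ : ∀ k ∈ ({2, 3, 4} : Finset ℕ), ∃ a b hab,
      k • Affine.Point.some 0 0 h' = (Affine.Point.some a b hab : W₁.toAffine.Point) ∧ v a < 1 := by
    intro k hk
    obtain ⟨xk, yk, hk', hkP, hks⟩ := hmul k (Finset.mem_insert_of_mem hk)
    obtain ⟨a, b, hab, hPab, hxa, hyb⟩ := pointVC_some_of_eq C hkP
    refine ⟨a, b, hab, pointVC_injective C W (by rw [map_nsmul, hP', hPab]), ?_⟩
    refine (small_of_singularRed hW₁' hb2 h3 h4 (by simp [e6]) hab.1 ?_).1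
    obtain ⟨hks1, hks2, hks3⟩ := hks
    simp only [hC, vcX, vcY, Units.val_one, one_pow, one_mul, mul_zero, add_zero, zero_mul]
      at hxa hyb
    refine ⟨?_, ?_, ?_⟩
    · rw [show a = xk - x by linear_combination hxa]; exact v.map_sub_le hks1 hx
    · rw [show 2 * b + W₁.a₁ * a + W₁.a₃ = 2 * yk + W.a₁ * xk + W.a₃ by
        rw [e1, e3, ← hxa, ← hyb]; ring]
      exact hks2
    · rw [show W₁.a₁ * b - (3 * a ^ 2 + 2 * W₁.a₂ * a + W₁.a₄) =
          W.a₁ * yk - (3 * xk ^ 2 + 2 * W.a₂ * xk + W.a₄) by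
        rw [e1, e2, e4, ← hxa, ← hyb]; ring]
      exact hks3
  obtain ⟨s, hs, hconcl⟩ := scalable_of_origin hW₁' hπ1 hdisc hb2 h3 e6 rfl hmul₁
  refine ⟨x, s, y, hx, hs, hy, ?_⟩
  have hCC : (⟨1, x, s, y⟩ : VariableChange L) = ⟨1, 0, s, 0⟩ * C := by
    rw [hC, VariableChange.mul_def]
    ext <;> simp
  simpa only [hCC, mul_smul] using hconcl

end Main

end Fermat.Agent.Mazur.EndGame
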