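import Mathlib
import Fermat.Agent.Isogeny.VariableChange
import Fermat.Agent.Mazur.EndGame.Rational
import Fermat.Agent.Mazur.EndGame.Tate

/-!
# Minimal integral models
-/

set_option autoImplicit false

open WeierstrassCurve
open scoped WeierstrassCurve.Affine

namespace Fermat.Agent.Mazur.EndGame

open Fermat.Agent.MultRed

local notation "ℚ̄" => AlgebraicClosure ℚ
set_option quotPrecheck false in
local notation "E(" W ")" => ((WeierstrassCurve.map W (Int.castRingHom ℚ))⁄ℚ̄).Point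

/-- No integral model of the same curve has smaller discriminant. -/
def IsMinModel (W : WeierstrassCurve ℤ) : Prop :=
  W.Δ ≠ 0 ∧ ∀ (W₀ : WeierstrassCurve ℤ) (C : VariableChange ℚ),
    C • W.map (Int.castRingHom ℚ) = W₀.map (Int.castRingHom ℚ) → W.Δ.natAbs ≤ W₀.Δ.natAbs

/-- A change of variables over `ℚ` gives an equivariant isomorphism of `ℚ̄`-points. -/
theorem exists_equiv_of_vc (E E' : WeierstrassCurve ℚ) [E.IsElliptic] (C : VariableChange ℚ) (h : C • E = E') :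
    ∃ e : (E⁄ℚ̄).Point ≃+ (E'⁄ℚ̄).Point,
      ∀ (σ : ℚ̄ ≃ₐ[ℚ] ℚ̄) (P : (E⁄ℚ̄).Point), e (σ • P) = σ • e P := by
  set ι := algebraMap ℚ ℚ̄
  have : E'.IsElliptic := h ▸ inferInstance
  have : (E⁄ℚ̄).toAffine.IsElliptic := inferInstanceAs ((E.map ι).IsElliptic)
  have : (E'⁄ℚ̄).toAffine.IsElliptic := inferInstanceAs ((E'.map ι).IsElliptic)
  have h' : (C.map ι) • (E⁄ℚ̄).toAffine = (E'⁄ℚ̄).toAffine :=
    (WeierstrassCurve.map_variableChange (W := E) C ι).trans (by rw [h]; rfl)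
  set f := Isogeny.vcEquiv (C.map ι) h' with hf
  refine ⟨f.symm, fun σ P => f.injective ?_⟩
  rw [AddEquiv.apply_symm_apply]
  have key : ∀ Q : (E'⁄ℚ̄).Point, f (σ • Q) = σ • f Q := by
    intro Q
    rcases Q with _ | ⟨x, y, hQ⟩
    · show f (σ • (0 : (E'⁄ℚ̄).Point)) = σ • f (0 : (E'⁄ℚ̄).Point)
      rw [Affine.Point.algEquiv_smul_def, Affine.Point.algEquiv_smul_def, map_zero]
      erw [map_zero]
    · obtain ⟨h₁, e₁⟩ := Isogeny.vcEquiv_some (C.map ι) h' hQ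
      obtain ⟨h₂, e₂⟩ := EllTorsion.smul_some σ hQ
      obtain ⟨h₃, e₃⟩ := Isogeny.vcEquiv_some (C.map ι) h' h₂
      rw [e₂, hf, e₃, e₁, Affine.Point.algEquiv_smul_def]
      refine Eq.trans ?_ (Affine.Point.map_some σ.toAlgHom h₁).symm
      simp [WeierstrassCurve.VariableChange.map, ι]
  rw [key, AddEquiv.apply_symm_apply]

lemma exists_intModel (E : WeierstrassCurve ℚ) :
    ∃ (W : WeierstrassCurve ℤ) (C : VariableChange ℚ), C • E = W.map (Int.castRingHom ℚ) := by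
  set d : ℕ := E.a₁.den * E.a₂.den * E.a₃.den * E.a₄.den * E.a₆.den with hd
  have hd0 : (d : ℚ) ≠ 0 := Nat.cast_ne_zero.2 (by simp [hd])
  have key : ∀ (a : ℚ) (i : ℕ), a.den ∣ d → ∃ z : ℤ, (z : ℚ) = (d : ℚ) ^ (i + 1) * a := by
    intro a i hdvd
    obtain ⟨m, hm⟩ := hdvd
    refine ⟨(d : ℤ) ^ i * m * a.num, ?_⟩
    rw [pow_succ]
    nth_rw 3 [hm]
    push_cast
    rw [show (d : ℚ) ^ i * ((a.den : ℚ) * m) * a = (d : ℚ) ^ i * m * (a * a.den) by ring,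
      Rat.mul_den_eq_num]
  obtain ⟨z₁, h₁⟩ := key E.a₁ 0 ⟨E.a₂.den * E.a₃.den * E.a₄.den * E.a₆.den, by rw [hd]; ring⟩
  obtain ⟨z₂, h₂⟩ := key E.a₂ 1 ⟨E.a₁.den * E.a₃.den * E.a₄.den * E.a₆.den, by rw [hd]; ring⟩
  obtain ⟨z₃, h₃⟩ := key E.a₃ 2 ⟨E.a₁.den * E.a₂.den * E.a₄.den * E.a₆.den, by rw [hd]; ring⟩
  obtain ⟨z₄, h₄⟩ := key E.a₄ 3 ⟨E.a₁.den * E.a₂.den * E.a₃.den * E.a₆.den, by rw [hd]; ring⟩
  obtain ⟨z₆, h₆⟩ := key E.a₆ 5 ⟨E.a₁.den * E.a₂.den * E.a₃.den * E.a₄.den, by rw [hd]; ring⟩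
  refine ⟨⟨z₁, z₂, z₃, z₄, z₆⟩, ⟨(Units.mk0 (d : ℚ) hd0)⁻¹, 0, 0, 0⟩, ?_⟩
  ext <;> simp [variableChange_def, WeierstrassCurve.map, h₁, h₂, h₃, h₄, h₆]

/-- Every elliptic curve over `ℚ` has a minimal integral model. -/
theorem exists_minModel (E : WeierstrassCurve ℚ) [E.IsElliptic] :
    ∃ W : WeierstrassCurve ℤ, IsMinModel W ∧
      ∃ e : (E⁄ℚ̄).Point ≃+ E(W),
        ∀ (σ : ℚ̄ ≃ₐ[ℚ] ℚ̄) (P : (E⁄ℚ̄).Point), e (σ • P) = σ • e P := by
  classical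
  have hex : ∃ n, ∃ (W : WeierstrassCurve ℤ) (C : VariableChange ℚ),
      C • E = W.map (Int.castRingHom ℚ) ∧ W.Δ.natAbs = n := by
    obtain ⟨W, C, h⟩ := exists_intModel E
    exact ⟨_, W, C, h, rfl⟩
  obtain ⟨W, C, hC, hn⟩ := Nat.find_spec hex
  refine ⟨W, ⟨?_, fun W₀ C₀ h₀ => ?_⟩, exists_equiv_of_vc E _ C hC⟩
  · intro h
    have h' := congrArg WeierstrassCurve.Δ hC
    rw [variableChange_Δ, WeierstrassCurve.map_Δ, h, map_zero] at h'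
    exact mul_ne_zero (pow_ne_zero 12 (C.u⁻¹).ne_zero) E.isUnit_Δ.ne_zero h'
  · rw [hn]
    exact Nat.find_min' hex ⟨W₀, C₀ * C, by rw [mul_smul, hC, h₀], rfl⟩

variable {W : WeierstrassCurve ℤ} {A : ValuationSubring ℚ̄} {ℓ : ℕ}

lemma pow_dvd_of_vint_le (hℓ : ℓ.Prime) (hA : A.LiesOverPrime ℓ) {z : ℤ} {i : ℕ}
    (h : A.valuation (z : ℚ̄) ≤ A.valuation (ℓ : ℚ̄) ^ i) : (ℓ : ℤ) ^ i ∣ z := by
  have := Fact.mk hℓ
  rcases eq_or_ne z 0 with rfl | hz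
  · exact dvd_zero _
  rw [vint_eq_pow hℓ hA hz] at h
  refine (padicValInt_dvd_iff _ _).2 (Or.inr (not_lt.1 fun hlt => ?_))
  exact absurd h (not_le.2 (pow_lt_pow_right_of_lt_one₀ (vq_pos hℓ) (vq_lt_one hA) hlt))

/-- A scalable translate contradicts minimality. -/
theorem not_scalable (hmin : IsMinModel W) (hℓ : ℓ.Prime) (hA : A.LiesOverPrime ℓ) {r s t : ℚ}
    (hr : A.valuation (r : ℚ̄) ≤ 1) (hs : A.valuation (s : ℚ̄) ≤ 1)
    (ht : A.valuation (t : ℚ̄) ≤ 1)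
    (hsc :
      let W' := (⟨1, (r : ℚ̄), (s : ℚ̄), (t : ℚ̄)⟩ : VariableChange ℚ̄) • curveQbar W
      A.valuation W'.a₁ ≤ A.valuation (ℓ : ℚ̄) ∧ A.valuation W'.a₂ ≤ A.valuation (ℓ : ℚ̄) ^ 2 ∧
      A.valuation W'.a₃ ≤ A.valuation (ℓ : ℚ̄) ^ 3 ∧
      A.valuation W'.a₄ ≤ A.valuation (ℓ : ℚ̄) ^ 4 ∧
      A.valuation W'.a₆ ≤ A.valuation (ℓ : ℚ̄) ^ 6) : False := by
  obtain ⟨r₀, hr₀⟩ := exists_int_approx hℓ hA hr 6
  obtain ⟨s₀, hs₀⟩ := exists_int_approx hℓ hA hs 6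
  obtain ⟨t₀, ht₀⟩ := exists_int_approx hℓ hA ht 6
  rw [A.valuation.map_sub_swap] at hr₀ hs₀ ht₀
  obtain ⟨h1, h2, h3, h4, h6⟩ := hsc
  have key := scalable_perturb (vq_lt_one hA).le h1 h2 h3 h4 h6 (r := (r₀ : ℚ̄) - r)
    (s := (s₀ : ℚ̄) - s) (t := (t₀ : ℚ̄) - t - ((r₀ : ℚ̄) - r) * s) hr₀ hs₀
    (A.valuation.map_sub_le ht₀ (by
      rw [map_mul]; exact (mul_le_of_le_one_right zero_le hs).trans hr₀))
  rw [← mul_smul] at key
  have hCC : (⟨1, (r₀ : ℚ̄) - r, (s₀ : ℚ̄) - s, (t₀ : ℚ̄) - t - ((r₀ : ℚ̄) - r) * s⟩ :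
      VariableChange ℚ̄) * ⟨1, r, s, t⟩ =
      (⟨1, r₀, s₀, t₀⟩ : VariableChange ℤ).map (Int.castRingHom ℚ̄) := by
    rw [VariableChange.mul_def]
    ext <;> simp [WeierstrassCurve.VariableChange.map]
  have hW : curveQbar W = W.map (Int.castRingHom ℚ̄) := by
    ext <;> simp [curveQbar, WeierstrassCurve.baseChange]
  rw [hCC, hW, WeierstrassCurve.map_variableChange] at key
  set W' := (⟨1, r₀, s₀, t₀⟩ : VariableChange ℤ) • W with hW'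
  simp only [WeierstrassCurve.map, eq_intCast] at key
  obtain ⟨k1, k2, k3, k4, k6⟩ := key
  obtain ⟨z₁, hz₁⟩ := pow_dvd_of_vint_le hℓ hA (i := 1) (by rwa [pow_one])
  obtain ⟨z₂, hz₂⟩ := pow_dvd_of_vint_le hℓ hA k2
  obtain ⟨z₃, hz₃⟩ := pow_dvd_of_vint_le hℓ hA k3
  obtain ⟨z₄, hz₄⟩ := pow_dvd_of_vint_le hℓ hA k4
  obtain ⟨z₆, hz₆⟩ := pow_dvd_of_vint_le hℓ hA k6
  set W₀ : WeierstrassCurve ℤ := ⟨z₁, z₂, z₃, z₄, z₆⟩ with hW₀
  have hℓ0 : (ℓ : ℚ) ≠ 0 := Nat.cast_ne_zero.2 hℓ.ne_zero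
  set D : VariableChange ℚ := ⟨Units.mk0 (ℓ : ℚ) hℓ0, 0, 0, 0⟩
  have hD : D • W'.map (Int.castRingHom ℚ) = W₀.map (Int.castRingHom ℚ) := by
    ext <;> simp [D, W₀, variableChange_def, WeierstrassCurve.map, hz₁, hz₂, hz₃, hz₄, hz₆] <;>
      field_simp
  have hΔ' : W'.Δ = W.Δ := by rw [hW', variableChange_Δ]; simp
  have hΔ : (W.Δ : ℚ) = (ℓ : ℚ) ^ 12 * (W₀.Δ : ℚ) := by
    have := congrArg WeierstrassCurve.Δ hD
    rw [variableChange_Δ, WeierstrassCurve.map_Δ, WeierstrassCurve.map_Δ, hΔ', eq_intCast,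
      eq_intCast] at this
    rw [← this]
    simp only [D, Units.val_inv_eq_inv_val, Units.val_mk0]
    field_simp
  have hΔZ : W.Δ = (ℓ : ℤ) ^ 12 * W₀.Δ := by exact_mod_cast hΔ
  have hle := hmin.2 W₀ (D * (⟨1, r₀, s₀, t₀⟩ : VariableChange ℤ).map (Int.castRingHom ℚ)) (by
    rw [mul_smul, WeierstrassCurve.map_variableChange, ← hW', hD])
  have h0 : W₀.Δ ≠ 0 := fun h => hmin.1 (by rw [hΔZ, h, mul_zero])
  rw [hΔZ, Int.natAbs_mul, Int.natAbs_pow, Int.natAbs_natCast] at hle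
  have : 1 * W₀.Δ.natAbs < ℓ ^ 12 * W₀.Δ.natAbs :=
    Nat.mul_lt_mul_of_pos_right (one_lt_pow₀ hℓ.one_lt (by norm_num))
      (Int.natAbs_pos.2 h0)
  omega

/-- **Some small multiple of a rational point has nonsingular reduction** at a prime of additive
reduction of a minimal model. -/
theorem exists_multiple_inZeroComponentAt (hmin : IsMinModel W) (hℓ : ℓ.Prime)
    (hA : A.LiesOverPrime ℓ) (hc₄ : (ℓ : ℤ) ∣ W.c₄)
    {Q : E(W)} (hQ : ∀ σ : ℚ̄ ≃ₐ[ℚ] ℚ̄, σ • Q = Q) :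
    ∃ k ∈ ({1, 2, 3, 4} : Finset ℕ), W.InZeroComponentAt A (k • Q) := by
  classical
  by_contra hcon
  push Not at hcon
  have := isElliptic_map hmin.1
  set L := ((W.map (Int.castRingHom ℚ))⁄ℚ : WeierstrassCurve ℚ) with hL
  obtain ⟨Q₀, hQ₀⟩ := EllTorsion.exists_rational_of_fixed (W.map (Int.castRingHom ℚ)) Q hQ
  set w := A.valuation.comap (algebraMap ℚ ℚ̄) with hw
  have hwv : ∀ z : ℚ, w z = A.valuation (z : ℚ̄) := fun z => by
    simp [hw, Valuation.comap_apply]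
  have hcoef : L.a₁ = W.a₁ ∧ L.a₂ = W.a₂ ∧ L.a₃ = W.a₃ ∧ L.a₄ = W.a₄ ∧ L.a₆ = W.a₆ := by
    simp [hL, WeierstrassCurve.baseChange, WeierstrassCurve.map]
  obtain ⟨c1, c2, c3, c4, c6⟩ := hcoef
  have hint : IntCoeffs w L := by
    constructor <;> simp only [c1, c2, c3, c4, c6, hwv, Rat.cast_intCast] <;> exact vint_le _
  have hdisc : ∀ z : ℚ, w z < 1 → w z ≤ w (ℓ : ℚ) := by
    intro z hz
    rcases eq_or_ne z 0 with rfl | hz0
    · rw [map_zero]; exact zero_le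
    obtain ⟨k, hk⟩ := vrat_eq_zpow hℓ hA hz0
    rw [hwv] at hz ⊢
    rw [hwv, Rat.cast_natCast, hk]
    rw [hk] at hz
    have hk1 : 1 ≤ k := by
      by_contra hc
      exact absurd hz (not_lt.2
        (one_le_zpow_of_nonpos₀ (vq_pos hℓ) (vq_lt_one hA).le (by omega)))
    simpa using zpow_le_zpow_right_of_le_one₀ (vq_pos hℓ) (vq_lt_one hA).le hk1
  have hc : w L.c₄ < 1 := by
    have : L.c₄ = (W.c₄ : ℚ) := by
      simp [hL, WeierstrassCurve.baseChange]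
    rw [this, hwv, Rat.cast_intCast]; exact vint_lt_one hA hc₄
  have hwℓ : w (ℓ : ℚ) = A.valuation (ℓ : ℚ̄) := by rw [hwv, Rat.cast_natCast]
  have hmul : ∀ k ∈ ({1, 2, 3, 4} : Finset ℕ), ∃ x y h,
      k • Q₀ = (Affine.Point.some x y h : L.toAffine.Point) ∧ SingularRed w L x y := by
    intro k hk
    have hne := hcon k hk
    rw [← hQ₀, ← map_nsmul] at hne
    rcases he : k • Q₀ with _ | ⟨x, y, h⟩
    · rw [he] at hne
      exact absurd (Or.inl rfl) hne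
    rw [he] at hne
    refine ⟨x, y, h, rfl, ?_⟩
    rw [Affine.Point.map_some, inZeroComponentAt_iff] at hne
    obtain ⟨s1, s2, s3⟩ := singularRed_of_not_inE0 intCoeffs_curveQbar hne
    simp only [eq_ratCast] at s1 s2 s3
    simp only [curveQbar, WeierstrassCurve.baseChange, WeierstrassCurve.map, eq_intCast,
      eq_ratCast, Rat.cast_intCast] at s2 s3
    refine ⟨by rwa [hwv], ?_, ?_⟩
    · rw [hwv, c1, c3]; push_cast; exact s2
    · rw [hwv, c1, c2, c4]; push_cast; exact s3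
  obtain ⟨r, s, t, hr, hs, ht, hsc⟩ := scalable_of_singularRed hint
    (π := (ℓ : ℚ)) (by rw [hwℓ]; exact vq_lt_one hA) hdisc hc hmul
  rw [hwv] at hr hs ht
  refine not_scalable hmin hℓ hA hr hs ht ?_
  simp only [hwℓ] at hsc
  simp only [variableChange_def, c1, c2, c3, c4, c6, hwv, inv_one, Units.val_one] at hsc
  push_cast at hsc
  simp only [variableChange_def, curveQbar, WeierstrassCurve.baseChange, WeierstrassCurve.map,
    eq_intCast, eq_ratCast, Rat.cast_intCast, inv_one, Units.val_one]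
  exact hsc

end Fermat.Agent.Mazur.EndGame
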