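import Mathlib
import Fermat.Agent.MultRed.Transport
import Fermat.Agent.EllTorsion.Mul

/-!
# A cuspidal cubic has no torsion of order prime to the characteristic
-/

set_option autoImplicit false

open Polynomial WeierstrassCurve

namespace Fermat.Agent.Mazur.EndGame

open Fermat.Agent.MultRed

variable {k : Type*} [Field k]

/-- The division polynomials when all the `b`-invariants vanish. -/
lemma preΨ'_cusp_eval {W : WeierstrassCurve k} (h2 : W.b₂ = 0) (h4 : W.b₄ = 0) (h6 : W.b₆ = 0)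
    (h8 : W.b₈ = 0) (x : k) : ∀ n : ℕ,
    (∀ j, n = 2 * j + 1 → (W.preΨ' n).eval x = (2 * j + 1) * x ^ (2 * j ^ 2 + 2 * j)) ∧
      (∀ j, n = 2 * j + 2 → (W.preΨ' n).eval x = (j + 1) * x ^ (2 * j ^ 2 + 4 * j)) := by
  have e2 : W.Ψ₂Sq.eval x = 4 * x ^ 3 := by
    simp [WeierstrassCurve.Ψ₂Sq, h2, h4, h6]
  intro n
  induction n using Nat.strong_induction_on with
  | _ n ih =>
    have O : ∀ j, 2 * j + 1 < n →
        (W.preΨ' (2 * j + 1)).eval x = (2 * j + 1) * x ^ (2 * j ^ 2 + 2 * j) :=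
      fun j hj => (ih _ hj).1 j rfl
    have E : ∀ j, 2 * j + 2 < n →
        (W.preΨ' (2 * j + 2)).eval x = (j + 1) * x ^ (2 * j ^ 2 + 4 * j) :=
      fun j hj => (ih _ hj).2 j rfl
    refine ⟨fun j hn => ?_, fun j hn => ?_⟩
    · subst hn
      rcases (by omega : j = 0 ∨ j = 1 ∨ 2 ≤ j) with rfl | rfl | hj
      · simp
      · norm_num [WeierstrassCurve.preΨ'_three, WeierstrassCurve.Ψ₃, h2, h4, h6, h8]
      obtain ⟨m, rfl⟩ : ∃ m, j = m + 2 := ⟨j - 2, by omega⟩
      rw [WeierstrassCurve.preΨ'_odd]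
      rcases Nat.even_or_odd' m with ⟨i, rfl | rfl⟩
      · rw [if_pos (even_two_mul i), if_pos (even_two_mul i)]
        simp only [eval_sub, eval_mul, eval_pow, eval_one, e2]
        rw [show 2 * i + 4 = 2 * (i + 1) + 2 by ring, show 2 * i + 3 = 2 * (i + 1) + 1 by ring,
          E (i + 1) (by omega), E i (by omega), O i (by omega), O (i + 1) (by omega)]
        push_cast
        ring
      · rw [if_neg (by simp), if_neg (by simp)]
        simp only [eval_sub, eval_mul, eval_pow, eval_one, e2]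
        rw [show 2 * i + 1 + 4 = 2 * (i + 2) + 1 by ring,
          show 2 * i + 1 + 2 = 2 * (i + 1) + 1 by ring,
          show 2 * i + 1 + 1 = 2 * i + 2 by ring, show 2 * i + 1 + 3 = 2 * (i + 1) + 2 by ring,
          E (i + 1) (by omega), E i (by omega), O (i + 2) (by omega), O (i + 1) (by omega)]
        push_cast
        ring
    · subst hn
      rcases (by omega : j = 0 ∨ j = 1 ∨ 2 ≤ j) with rfl | rfl | hj
      · simp
      · norm_num [WeierstrassCurve.preΨ'_four, WeierstrassCurve.preΨ₄, h2, h4, h6, h8]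
      obtain ⟨m, rfl⟩ : ∃ m, j = m + 2 := ⟨j - 2, by omega⟩
      rw [show 2 * (m + 2) + 2 = 2 * (m + 3) by ring, WeierstrassCurve.preΨ'_even]
      rcases Nat.even_or_odd' m with ⟨i, rfl | rfl⟩
      · simp only [eval_sub, eval_mul, eval_pow]
        rw [show 2 * i + 5 = 2 * (i + 2) + 1 by ring, show 2 * i + 4 = 2 * (i + 1) + 2 by ring,
          show 2 * i + 3 = 2 * (i + 1) + 1 by ring,
          E (i + 1) (by omega), E i (by omega), O i (by omega), O (i + 1) (by omega),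
          O (i + 2) (by omega)]
        push_cast
        ring
      · simp only [eval_sub, eval_mul, eval_pow]
        rw [show 2 * i + 1 + 5 = 2 * (i + 2) + 2 by ring,
          show 2 * i + 1 + 4 = 2 * (i + 2) + 1 by ring,
          show 2 * i + 1 + 3 = 2 * (i + 1) + 2 by ring,
          show 2 * i + 1 + 2 = 2 * (i + 1) + 1 by ring,
          show 2 * i + 1 + 1 = 2 * i + 2 by ring,
          E (i + 2) (by omega), E (i + 1) (by omega), E i (by omega), O (i + 1) (by omega),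
          O (i + 2) (by omega)]
        push_cast
        ring

/-- On an algebraically closed field a cubic with `c₄ = Δ = 0` is, after a translation of `x`,
of cuspidal shape. -/
lemma exists_translate_b_eq_zero [IsAlgClosed k] {W : WeierstrassCurve k} (hΔ : W.Δ = 0)
    (hc : W.c₄ = 0) : ∃ r : k, W.b₂ + 12 * r = 0 ∧ W.b₄ + r * W.b₂ + 6 * r ^ 2 = 0 ∧
      W.b₆ + 2 * r * W.b₄ + r ^ 2 * W.b₂ + 4 * r ^ 3 = 0 ∧
      W.b₈ + 3 * r * W.b₆ + 3 * r ^ 2 * W.b₄ + r ^ 3 * W.b₂ + 3 * r ^ 4 = 0 := by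
  have hrel := W.b_relation
  simp only [WeierstrassCurve.c₄] at hc
  simp only [WeierstrassCurve.Δ] at hΔ
  by_cases h2 : (2 : k) = 0
  · have hb2 : W.b₂ = 0 := pow_eq_zero_iff two_ne_zero |>.1 (by linear_combination hc + 12 * W.b₄ * h2)
    have hb2' : W.a₁ ^ 2 + 4 * W.a₂ = 0 := hb2
    have ha1 : W.a₁ = 0 := pow_eq_zero_iff two_ne_zero |>.1
      (by linear_combination hb2' - 2 * W.a₂ * h2)
    have hb4 : W.b₄ = 0 := by simp [WeierstrassCurve.b₄, h2, ha1]
    have hb6 : W.b₆ = 0 := pow_eq_zero_iff two_ne_zero |>.1 (by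
      rw [hb2, hb4] at hΔ; linear_combination hΔ + 14 * W.b₆ ^ 2 * h2)
    obtain ⟨r, hr⟩ := IsAlgClosed.exists_pow_nat_eq (-W.b₈ / 3) (show 0 < 4 by norm_num)
    have h3 : (3 : k) ≠ 0 := fun h3 => one_ne_zero (by linear_combination h3 - h2)
    rw [eq_div_iff h3] at hr
    refine ⟨r, ?_, ?_, ?_, ?_⟩
    · linear_combination hb2 + 6 * r * h2
    · linear_combination hb4 + r * hb2 + 3 * r ^ 2 * h2
    · linear_combination hb6 + 2 * r * hb4 + r ^ 2 * hb2 + 2 * r ^ 3 * h2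
    · linear_combination hr + 3 * r * hb6 + 3 * r ^ 2 * hb4 + r ^ 3 * hb2
  have h4 : (4 : k) ≠ 0 := by rw [show (4 : k) = 2 * 2 by norm_num]; exact mul_ne_zero h2 h2
  by_cases h3 : (3 : k) = 0
  · have hb2 : W.b₂ = 0 := pow_eq_zero_iff two_ne_zero |>.1
      (by linear_combination hc + 8 * W.b₄ * h3)
    have h8 : (8 : k) ≠ 0 := by rw [show (8 : k) = 4 * 2 by norm_num]; exact mul_ne_zero h4 h2
    have hb4 : W.b₄ = 0 := pow_eq_zero_iff three_ne_zero |>.1 (mul_left_cancel₀ h8 (by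
      rw [hb2] at hΔ; linear_combination -hΔ - 9 * W.b₆ ^ 2 * h3))
    have hb8 : W.b₈ = 0 := mul_left_cancel₀ h4 (by rw [hb2, hb4] at hrel; linear_combination hrel)
    obtain ⟨r, hr⟩ := IsAlgClosed.exists_pow_nat_eq (-W.b₆ / 4) (show 0 < 3 by norm_num)
    rw [eq_div_iff h4] at hr
    refine ⟨r, ?_, ?_, ?_, ?_⟩
    · linear_combination hb2 + 4 * r * h3
    · linear_combination hb4 + r * hb2 + 2 * r ^ 2 * h3
    · linear_combination hr + 2 * r * hb4 + r ^ 2 * hb2
    · linear_combination hb8 + (r * W.b₆ + r ^ 4) * h3 + 3 * r ^ 2 * hb4 + r ^ 3 * hb2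
  have h12 : (12 : k) ≠ 0 := by rw [show (12 : k) = 4 * 3 by norm_num]; exact mul_ne_zero h4 h3
  set r := -W.b₂ / 12 with hr
  set B4 := W.b₄ + r * W.b₂ + 6 * r ^ 2 with hB4
  set B6 := W.b₆ + 2 * r * W.b₄ + r ^ 2 * W.b₂ + 4 * r ^ 3 with hB6
  set B8 := W.b₈ + 3 * r * W.b₆ + 3 * r ^ 2 * W.b₄ + r ^ 3 * W.b₂ + 3 * r ^ 4 with hB8
  have hb2 : W.b₂ = -12 * r := by rw [hr]; field_simp
  have h24 : (24 : k) ≠ 0 := by rw [show (24 : k) = 12 * 2 by norm_num]; exact mul_ne_zero h12 h2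
  have hb4' : B4 = 0 := mul_left_cancel₀ h24 (by
    rw [hb2] at hc
    simp only [hB4, hb2]
    linear_combination -hc)
  have h27 : (27 : k) ≠ 0 := by
    rw [show (27 : k) = 3 * 3 * 3 by norm_num]; exact mul_ne_zero (mul_ne_zero h3 h3) h3
  have hb6' : B6 = 0 := pow_eq_zero_iff two_ne_zero |>.1 (mul_left_cancel₀ h27 (by
    rw [hb2] at hΔ
    simp only [hB4, hb2] at hb4'
    simp only [hB6, hb2]
    have e4 : W.b₄ = 6 * r ^ 2 := by linear_combination hb4'
    rw [e4] at hΔ ⊢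
    have e8 : W.b₈ = -3 * r * W.b₆ - 9 * r ^ 4 := mul_left_cancel₀ h4 (by
      rw [hb2, e4] at hrel; linear_combination hrel)
    rw [e8] at hΔ
    linear_combination -hΔ))
  refine ⟨r, by rw [hr]; field_simp; ring, hb4', hb6', mul_left_cancel₀ h4 ?_⟩
  have hb2'' : W.b₂ + 12 * r = 0 := by linear_combination hb2
  linear_combination hrel + (W.b₂ + 12 * r) * hb6' -
    (W.b₄ + r * W.b₂ + 6 * r ^ 2) * hb4'

/-- **No torsion prime to the characteristic on a cuspidal cubic.** -/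
theorem nsmul_ne_zero_of_cusp [IsAlgClosed k] [DecidableEq k] {W : WeierstrassCurve k}
    (hΔ : W.Δ = 0) (hc : W.c₄ = 0) {n : ℕ} (hodd : Odd n) (hn : (n : k) ≠ 0) {x y : k}
    (h : W.toAffine.Nonsingular x y) : n • Affine.Point.some x y h ≠ 0 := by
  intro hP
  obtain ⟨r, hb2, hb4, hb6, hb8⟩ := exists_translate_b_eq_zero hΔ hc
  set C : VariableChange k := ⟨1, r, 0, 0⟩ with hC
  have b2 : (C • W).b₂ = 0 := by simpa [hC, variableChange_b₂] using hb2
  have b4 : (C • W).b₄ = 0 := by simpa [hC, variableChange_b₄] using hb4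
  have b6 : (C • W).b₆ = 0 := by simpa [hC, variableChange_b₆] using hb6
  have b8 : (C • W).b₈ = 0 := by simpa [hC, variableChange_b₈] using hb8
  obtain ⟨P', hP'⟩ := pointVC_surjective C W (.some x y h)
  rcases P' with _ | ⟨X, Y, h'⟩
  · exact Affine.Point.some_ne_zero h hP'.symm
  have hn' : n • Affine.Point.some X Y h' = 0 := by
    refine pointVC_injective C W ?_
    rw [map_nsmul, hP', hP, map_zero]
  have he := EllTorsion.preΨ'_eval_eq_zero h' hodd hn'
  obtain ⟨j, rfl⟩ := hodd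
  rw [(preΨ'_cusp_eval b2 b4 b6 b8 X _).1 j rfl, mul_eq_zero, pow_eq_zero_iff'] at he
  push_cast at hn
  obtain ⟨hX, -⟩ := he.resolve_left hn
  subst hX
  rw [Affine.nonsingular_iff', Affine.equation_iff] at h'
  obtain ⟨hE, hns⟩ := h'
  have hY : 2 * Y + (C • W).a₁ * 0 + (C • W).a₃ = 0 := pow_eq_zero_iff two_ne_zero |>.1 (by
    simp only [WeierstrassCurve.b₆] at b6
    linear_combination 4 * hE + b6)
  have hX : (C • W).a₁ * Y - (3 * 0 ^ 2 + 2 * (C • W).a₂ * 0 + (C • W).a₄) = 0 :=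
    pow_eq_zero_iff two_ne_zero |>.1 (by
      simp only [WeierstrassCurve.b₂, WeierstrassCurve.b₄, WeierstrassCurve.b₆,
        WeierstrassCurve.b₈] at b2 b4 b6 b8
      linear_combination (C • W).a₁ ^ 2 * hE - (C • W).a₁ * Y * b4 + b8 - (C • W).a₂ * b6 +
        (C • W).a₄ * b4)
  rcases hns with h1 | h1
  · exact h1 hX
  · exact h1 hY

end Fermat.Agent.Mazur.EndGame
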