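import Mathlib
import Fermat.Agent.Mazur.EndGame.Model
import Fermat.Agent.Mazur.EndGame.Cusp
import Fermat.Agent.EllLocal.IntCurve

/-!
# A minimal model with a rational point of prime order `p ≥ 17` is semistable
-/

set_option autoImplicit false

open Polynomial WeierstrassCurve
open scoped WeierstrassCurve.Affine

namespace Fermat.Agent.Mazur.EndGame

open Fermat.Agent.MultRed

local notation "ℚ̄" => AlgebraicClosure ℚ
set_option quotPrecheck false in
local notation "E(" W ")" => ((WeierstrassCurve.map W (Int.castRingHom ℚ))⁄ℚ̄).Point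

variable {W : WeierstrassCurve ℤ} {A : ValuationSubring ℚ̄} {ℓ p : ℕ}

lemma not_dvd_two_three (hp : p.Prime) (hp5 : 5 ≤ p) (a b : ℕ) : ¬ p ∣ 2 ^ a * 3 ^ b := by
  intro h
  rcases hp.dvd_mul.1 h with h | h
  · have := Nat.le_of_dvd (by norm_num) (hp.dvd_of_dvd_pow h); omega
  · have := Nat.le_of_dvd (by norm_num) (hp.dvd_of_dvd_pow h); omega

/-- At a prime of additive reduction other than `p` no integral point of order `p` has nonsingular
reduction. -/
lemma not_inZeroComponentAt_of_additive (hℓ : ℓ.Prime) (hA : A.LiesOverPrime ℓ)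
    (hΔ : (ℓ : ℤ) ∣ W.Δ) (hc₄ : (ℓ : ℤ) ∣ W.c₄) {n : ℕ} (hodd : Odd n) (hn : ¬ ℓ ∣ n)
    {x y : ℚ̄} (h : ((W.map (Int.castRingHom ℚ))⁄ℚ̄).Nonsingular x y)
    (hnP : n • Affine.Point.some x y h = 0) (hx : x ∈ A) :
    ¬ W.InZeroComponentAt A (.some x y h) := by
  classical
  rintro (h0 | ⟨x', y', h', he, hor⟩)
  · exact Affine.Point.some_ne_zero h h0
  obtain ⟨rfl, rfl⟩ := Affine.Point.some.inj he
  obtain ⟨hxA, hyA, hns⟩ := hor.resolve_left (fun hc => hc hx)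
  have := EllLocal.isAlgClosed_residueField A
  set ρ := IsLocalRing.residue A
  set Wk := W.map (Int.castRingHom (IsLocalRing.ResidueField A)) with hWk
  have hz : ∀ z : ℤ, (ℓ : ℤ) ∣ z → (z : IsLocalRing.ResidueField A) = 0 := by
    rintro z ⟨w, rfl⟩
    rw [Int.cast_mul, Int.cast_natCast, EllLocal.natCast_residue_eq_zero hA, zero_mul]
  have hΔk : Wk.Δ = 0 := by rw [hWk, WeierstrassCurve.map_Δ]; exact hz _ hΔ
  have hck : Wk.c₄ = 0 := by rw [hWk, WeierstrassCurve.map_c₄]; exact hz _ hc₄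
  have hnk : (n : IsLocalRing.ResidueField A) ≠ 0 := by
    rw [← map_natCast ρ n]
    exact (residue_ne_zero_iff _).2 (by simpa using vnat_eq_one hℓ hA hn)
  refine nsmul_ne_zero_of_cusp hΔk hck hodd hnk hns ?_
  refine (EllTorsion.preΨ'_eval_eq_zero_iff hns hodd).1 ?_
  have e := EllTorsion.preΨ'_eval_eq_zero h hodd hnP
  have hQ : ((W.map (Int.castRingHom ℚ))⁄ℚ̄ : WeierstrassCurve ℚ̄) =
      (W.map (Int.castRingHom A)).map A.subtype := by
    ext <;> simp [WeierstrassCurve.baseChange, WeierstrassCurve.map]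
  have hk : Wk = (W.map (Int.castRingHom A)).map ρ := by
    rw [hWk, WeierstrassCurve.map_map]; exact congrArg W.map (RingHom.ext_int _ _)
  rw [hk, WeierstrassCurve.map_preΨ', eval_map, eval₂_at_apply]
  have e' : ((W.map (Int.castRingHom A)).preΨ' n).eval (⟨x, hxA⟩ : A) = 0 := by
    refine Subtype.coe_injective ?_
    show A.subtype _ = A.subtype 0
    rw [← eval₂_at_apply, map_zero, ← eval_map, ← WeierstrassCurve.map_preΨ', ← hQ]
    exact e
  rw [e', map_zero]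

/-- At `p` a point of order `p ≥ 17` cannot have integral nonsingular reduction if the reduction
is additive. -/
lemma not_inZeroComponentAt_of_additive_self (hp : p.Prime) (hp17 : 17 ≤ p) (hΔ0 : W.Δ ≠ 0)
    (hA : A.LiesOverPrime p) (hΔ : (p : ℤ) ∣ W.Δ) (hc₄ : (p : ℤ) ∣ W.c₄) {x y : ℚ̄}
    (h : ((W.map (Int.castRingHom ℚ))⁄ℚ̄).Nonsingular x y)
    (hpP : p • Affine.Point.some x y h = 0) (hx : A.valuation x ≤ 1) :
    ¬ W.InZeroComponentAt A (.some x y h) := by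
  intro h0
  set v := A.valuation with hv
  set E := curveQbar W with hE
  have hint : IntCoeffs v E := intCoeffs_curveQbar
  have hp5 : 5 ≤ p := by omega
  have hsm : ∀ a b : ℕ, v ((2 ^ a * 3 ^ b : ℕ) : ℚ̄) = 1 := fun a b =>
    vnat_eq_one hp hA (not_dvd_two_three hp hp5 a b)
  have h2 : v (2 : ℚ̄) = 1 := by simpa using hsm 1 0
  have h12 : v (12 : ℚ̄) = 1 := by simpa [show (2 ^ 2 * 3 ^ 1 : ℕ) = 12 by norm_num] using hsm 2 1
  have h48 : v (48 : ℚ̄) = 1 := by simpa [show (2 ^ 4 * 3 ^ 1 : ℕ) = 48 by norm_num] using hsm 4 1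
  have h864 : v (864 : ℚ̄) = 1 := by
    simpa [show (2 ^ 5 * 3 ^ 3 : ℕ) = 864 by norm_num] using hsm 5 3
  set r := -E.b₂ / 12 with hr
  set s := -E.a₁ / 2 with hs
  set t := -(E.a₃ + r * E.a₁) / 2 with ht
  have hrv : v r ≤ 1 := by
    rw [hr, map_div₀, h12, div_one, Valuation.map_neg]; exact vb₂_le hint
  have hsv : v s ≤ 1 := by rw [hs, map_div₀, h2, div_one, Valuation.map_neg]; exact hint.a₁
  set C : VariableChange ℚ̄ := ⟨1, r, s, t⟩ with hC
  set E' := C • E with hE'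
  have e1 : E'.a₁ = 0 := by
    simp [hE', hC, variableChange_def, hs]; ring
  have e2 : E'.a₂ = 0 := by
    simp [hE', hC, variableChange_def, hs, hr, WeierstrassCurve.b₂]; ring
  have e3 : E'.a₃ = 0 := by
    simp [hE', hC, variableChange_def, ht]; ring
  have ec4 : -48 * E'.a₄ = (W.c₄ : ℚ̄) := by
    have : E'.c₄ = (W.c₄ : ℚ̄) := by
      rw [hE', variableChange_c₄, ← curveQbar_c₄ (W := W)]; simp [hC, hE]
    rw [← this]
    simp only [WeierstrassCurve.c₄, WeierstrassCurve.b₂, WeierstrassCurve.b₄, e1, e2, e3]; ring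
  have ec6 : -864 * E'.a₆ = (W.c₆ : ℚ̄) := by
    have : E'.c₆ = (W.c₆ : ℚ̄) := by
      rw [hE', variableChange_c₆]
      simp [hC, hE, curveQbar, WeierstrassCurve.baseChange]
    rw [← this]
    simp only [WeierstrassCurve.c₆, WeierstrassCurve.b₂, WeierstrassCurve.b₄, WeierstrassCurve.b₆,
      e1, e2, e3]; ring
  have hc6 : (p : ℤ) ∣ W.c₆ := by
    have hrel := W.c_relation
    refine (Nat.prime_iff_prime_int.1 hp).dvd_of_dvd_pow (n := 2) ?_
    rw [show W.c₆ ^ 2 = W.c₄ ^ 3 - 1728 * W.Δ by linear_combination hrel]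
    exact dvd_sub (dvd_pow hc₄ (by norm_num)) (hΔ.mul_left _)
  have hvp : ∀ z : ℤ, (p : ℤ) ∣ z → v (z : ℚ̄) ≤ v (p : ℚ̄) := by
    rintro z ⟨w, rfl⟩
    push_cast
    exact vmul_le_left le_rfl (vint_le w)
  have hA4 : v E'.a₄ ≤ v (p : ℚ̄) := by
    have := hvp _ hc₄
    rwa [← ec4, map_mul, Valuation.map_neg, h48, one_mul] at this
  have hA6 : v E'.a₆ ≤ v (p : ℚ̄) := by
    have := hvp _ hc6
    rwa [← ec6, map_mul, Valuation.map_neg, h864, one_mul] at this
  have hvp1 : v (p : ℚ̄) < 1 := vq_lt_one hA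
  -- the point on the short model
  obtain ⟨X, Y, hXY, hP', hxX, hyY⟩ := pointVC_some_of_eq (W := E) C (x := x) (y := y) (h := h) rfl
  simp only [hC, vcX, vcY, Units.val_one, one_pow, one_mul] at hxX hyY
  have hXv : v X ≤ 1 := by
    rw [show X = x - r by linear_combination hxX]; exact v.map_sub_le hx hrv
  have hX1 : v X = 1 := by
    refine le_antisymm hXv (not_lt.1 fun hlt => ?_)
    have he := (Affine.equation_iff _ _).1 hXY.1
    rw [e1, e2, e3] at he
    have hY : v Y < 1 := vsmall_sq (by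
      rw [show Y ^ 2 = X ^ 3 + E'.a₄ * X + E'.a₆ by linear_combination he]
      exact v.map_add_lt (v.map_add_lt (vsmall_pow hlt (by norm_num))
        (vmul_lt_left (hA4.trans_lt hvp1) hXv)) (hA6.trans_lt hvp1))
    have hFY : v (2 * Y) < 1 := vmul_lt_right (vofNat_le v 2) hY
    have hFX : v (-(3 * X ^ 2 + E'.a₄)) < 1 := by
      rw [Valuation.map_neg]
      exact v.map_add_lt (vmul_lt_right (vofNat_le v 3) (vsmall_pow hlt two_ne_zero))
        (hA4.trans_lt hvp1)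
    have pY := polyY_vc C E X Y
    have pX := polyX_vc C E X Y
    simp only [Affine.evalEval_polynomialX, Affine.evalEval_polynomialY, ← hE', e1, e2, e3]
      at pX pY
    simp only [hC, vcX, vcY, Units.val_one, one_pow, one_mul, hxX, hyY] at pX pY
    rcases ((inZeroComponentAt_iff _).1 h0) with h' | h' | h'
    · exact absurd h' (not_lt.2 hx)
    · change v (2 * y + E.a₁ * x + E.a₃) = 1 at h'
      rw [show (2 * y + E.a₁ * x + E.a₃) = 2 * Y by linear_combination pY] at h'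
      exact hFY.ne h'
    · change v (E.a₁ * y - (3 * x ^ 2 + 2 * E.a₂ * x + E.a₄)) = 1 at h'
      rw [show (E.a₁ * y - (3 * x ^ 2 + 2 * E.a₂ * x + E.a₄)) =
        -(3 * X ^ 2 + E'.a₄) - s * (2 * Y) by linear_combination pX] at h'
      exact (v.map_sub_lt hFX (vmul_lt_right hsv hFY)).ne h'
  -- scale
  have hE'Δ : E'.Δ ≠ 0 := by
    rw [hE', variableChange_Δ, hE, curveQbar_Δ]
    exact mul_ne_zero (pow_ne_zero _ (C.u⁻¹).ne_zero) (Int.cast_ne_zero.2 hΔ0)
  obtain ⟨w, hw0, hwv, hw4, hw6⟩ : ∃ w : ℚ̄, w ≠ 0 ∧ v w ≤ v (p : ℚ̄) ^ 2 ∧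
      v E'.a₄ ^ 3 ≤ v w ∧ v E'.a₆ ^ 2 ≤ v w := by
    have h3 : v E'.a₄ ^ 3 ≤ v (p : ℚ̄) ^ 2 :=
      (pow_le_pow_left₀ zero_le hA4 3).trans (pow_le_pow_right_of_le_one' hvp1.le (by norm_num))
    have h2' : v E'.a₆ ^ 2 ≤ v (p : ℚ̄) ^ 2 := pow_le_pow_left₀ zero_le hA6 2
    have hne : E'.a₄ ≠ 0 ∨ E'.a₆ ≠ 0 := by
      by_contra hc
      push Not at hc
      exact hE'Δ (by simp [WeierstrassCurve.Δ, WeierstrassCurve.b₂, WeierstrassCurve.b₄,
        WeierstrassCurve.b₆, WeierstrassCurve.b₈, e1, e2, e3, hc.1, hc.2])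
    rcases le_total (v E'.a₄ ^ 3) (v E'.a₆ ^ 2) with hle | hle
    · refine ⟨E'.a₆ ^ 2, fun hz => ?_, by rwa [map_pow], by rwa [map_pow], by rw [map_pow]⟩
      have h6z : E'.a₆ = 0 := pow_eq_zero_iff two_ne_zero |>.1 hz
      rw [h6z, map_zero, zero_pow two_ne_zero, le_zero_iff, pow_eq_zero_iff three_ne_zero,
        v.zero_iff] at hle
      exact hne.elim (· hle) (· h6z)
    · refine ⟨E'.a₄ ^ 3, fun hz => ?_, by rwa [map_pow], by rw [map_pow], by rwa [map_pow]⟩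
      have h4z : E'.a₄ = 0 := pow_eq_zero_iff three_ne_zero |>.1 hz
      rw [h4z, map_zero, zero_pow three_ne_zero, le_zero_iff, pow_eq_zero_iff two_ne_zero,
        v.zero_iff] at hle
      exact hne.elim (· h4z) (· hle)
  obtain ⟨u, hu⟩ := IsAlgClosed.exists_pow_nat_eq w (show 0 < 12 by norm_num)
  have hu0 : u ≠ 0 := fun h => hw0 (by rw [← hu, h, zero_pow (by norm_num)])
  have hvu0 : 0 < v u := lt_of_le_of_ne zero_le (v.ne_zero_iff.2 hu0).symm
  rw [← hu, map_pow] at hwv hw4 hw6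
  have hvu1 : v u < 1 := (pow_lt_one_iff_of_nonneg zero_le (by norm_num : 12 ≠ 0)).1
    (hwv.trans_lt (pow_lt_one₀ zero_le hvp1 two_ne_zero))
  set D : VariableChange ℚ̄ := ⟨Units.mk0 u hu0, 0, 0, 0⟩ with hD
  set E'' := D • E' with hE''
  have hint'' : IntCoeffs v E'' := by
    have h4' : v E'.a₄ ≤ v u ^ 4 := le_of_pow_le_pow_left₀ three_ne_zero zero_le
      (by rwa [← pow_mul])
    have h6' : v E'.a₆ ≤ v u ^ 6 := le_of_pow_le_pow_left₀ two_ne_zero zero_le
      (by rwa [← pow_mul])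
    constructor
    · simp [hE'', hD, variableChange_def, e1]
    · simp [hE'', hD, variableChange_def, e1, e2]
    · simp [hE'', hD, variableChange_def, e1, e3]
    · simp only [hE'', hD, variableChange_def, e1, e2, e3, mul_zero, zero_mul, add_zero, sub_zero,
        Units.val_inv_eq_inv_val, Units.val_mk0, zero_pow, ne_eq, OfNat.ofNat_ne_zero,
        not_false_eq_true]
      rw [map_mul, map_pow, map_inv₀, inv_pow]
      exact (inv_mul_le_iff₀ (pow_pos hvu0 4)).2 (by simpa using h4')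
    · simp only [hE'', hD, variableChange_def, e1, e2, e3, mul_zero, zero_mul, add_zero, sub_zero,
        Units.val_inv_eq_inv_val, Units.val_mk0, zero_pow, ne_eq, OfNat.ofNat_ne_zero,
        not_false_eq_true]
      rw [map_mul, map_pow, map_inv₀, inv_pow]
      exact (inv_mul_le_iff₀ (pow_pos hvu0 6)).2 (by simpa using h6')
  obtain ⟨X', Y', hXY', hP'', hX', -⟩ :=
    pointVC_some_of_eq (W := E') D (x := X) (y := Y) (h := hXY) rfl
  have hX'v : v u ^ 2 * v X' = 1 := by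
    rw [← map_pow, ← map_mul, ← hX1]
    congr 1
    simpa [hD, vcX] using hX'
  have hX'1 : 1 < v X' := by
    by_contra hc
    push Not at hc
    exact absurd hX'v (ne_of_lt (lt_of_le_of_lt (mul_le_of_le_one_right zero_le hc)
      (pow_lt_one₀ zero_le hvu1 two_ne_zero)))
  have hp2 : p ≠ 2 := by omega
  have hodd := hp.odd_of_ne_two hp2
  have hb := vx_pow_le hint'' hp hodd (Nat.cast_ne_zero.2 hp.ne_zero) (h := hXY') hX'1 (by
    refine pointVC_injective D E' ?_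
    rw [map_zero, map_nsmul, hP'']
    refine pointVC_injective C E ?_
    rw [map_zero, map_nsmul, hP']
    exact hpP)
  set m := p / 2 with hm
  have key : v (p : ℚ̄) ≤ v u ^ (2 * m) := by
    calc v (p : ℚ̄) = v (p : ℚ̄) * (v u ^ 2 * v X') ^ m := by rw [hX'v, one_pow, mul_one]
      _ = v u ^ (2 * m) * (v (p : ℚ̄) * v X' ^ m) := by rw [mul_pow, ← pow_mul, mul_left_comm]
      _ ≤ v u ^ (2 * m) := mul_le_of_le_one_right zero_le hb
  have h32 : v u ^ 12 ≤ v u ^ (2 * m * 2) := by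
    rw [pow_mul (v u) (2 * m)]
    exact hwv.trans (pow_le_pow_left₀ zero_le key 2)
  exact absurd h32 (not_le.2 (pow_lt_pow_right_of_lt_one₀ hvu0 hvu1 (by omega)))

/-- **Semistability.** -/
theorem not_dvd_c₄ (hmin : IsMinModel W) (hp : p.Prime) (hp17 : 17 ≤ p) {Q : E(W)}
    (hQ : ∀ σ : ℚ̄ ≃ₐ[ℚ] ℚ̄, σ • Q = Q) (hQp : addOrderOf Q = p) (hℓ : ℓ.Prime)
    (hΔ : (ℓ : ℤ) ∣ W.Δ) : ¬ (ℓ : ℤ) ∣ W.c₄ := by
  intro hc₄
  obtain ⟨A, hA⟩ := exists_place hℓ
  obtain ⟨k, hk, hk0⟩ := exists_multiple_inZeroComponentAt hmin hℓ hA hc₄ hQ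
  have hk4 : 1 ≤ k ∧ k ≤ 4 := by
    simp only [Finset.mem_insert, Finset.mem_singleton] at hk; omega
  have hne : k • Q ≠ 0 := fun h => by
    have := Nat.le_of_dvd hk4.1 (hQp ▸ addOrderOf_dvd_of_nsmul_eq_zero h)
    omega
  have hpk : p • (k • Q) = 0 := by rw [smul_comm, ← hQp, addOrderOf_nsmul_eq_zero, nsmul_zero]
  rcases he : k • Q with _ | ⟨x, y, h⟩
  · exact hne he
  have hx : A.valuation x ≤ 1 := le_of_not_gt fun hgt => hne
    (eq_zero_of_inE1 hℓ hA hp (by omega) (fixed_nsmul hQ k) hpk (by rw [he]; exact hgt))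
  rw [he] at hk0 hpk
  by_cases hℓp : ℓ = p
  · subst hℓp
    exact not_inZeroComponentAt_of_additive_self hp hp17 hmin.1 hA hΔ hc₄ h hpk hx hk0
  · exact not_inZeroComponentAt_of_additive hℓ hA hΔ hc₄ (hp.odd_of_ne_two (by omega))
      (fun hd => hℓp ((Nat.prime_dvd_prime_iff_eq hℓ hp).1 hd)) h hpk
      ((A.valuation_le_one_iff x).1 hx) hk0

/-- Multiples of a point outside the identity component are outside it. -/
theorem not_inZeroComponentAt_nsmul (hℓ : ℓ.Prime) (hA : A.LiesOverPrime ℓ) (hΔ0 : W.Δ ≠ 0)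
    (hΔ : (ℓ : ℤ) ∣ W.Δ) (hc₄ : ¬ (ℓ : ℤ) ∣ W.c₄) (hp : p.Prime) {Q : E(W)}
    (hQp : p • Q = 0) (hQ0 : ¬ W.InZeroComponentAt A Q) {k : ℕ} (hk : k • Q ≠ 0) :
    ¬ W.InZeroComponentAt A (k • Q) := by
  intro h
  have hkp : ¬ p ∣ k := by
    rintro ⟨c, rfl⟩
    exact hk (by rw [mul_comm, mul_nsmul', hQp, nsmul_zero])
  obtain ⟨m, -, hm⟩ := Nat.exists_mul_mod_eq_one_of_coprime
    ((hp.coprime_iff_not_dvd.2 hkp).symm) hp.one_lt
  refine hQ0 ?_
  have hQ1 : Q = m • (k • Q) := by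
    rw [← mul_nsmul, ← Nat.mod_add_div (k * m) p, hm, add_nsmul, one_nsmul, mul_nsmul, hQp,
      nsmul_zero, add_zero]
  rw [hQ1]
  have : ∀ j : ℕ, W.InZeroComponentAt A (j • (k • Q)) := fun j => by
    induction j with
    | zero => rw [zero_nsmul]; exact inZeroComponentAt_zero
    | succ j ih => rw [succ_nsmul]; exact inZeroComponentAt_add hℓ hA hΔ0 hΔ hc₄ ih h
  exact this m

/-- **The primes two and three.** -/
theorem small_prime (hmin : IsMinModel W) (hp : p.Prime) (hp17 : 17 ≤ p) {Q : E(W)}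
    (hQ : ∀ σ : ℚ̄ ≃ₐ[ℚ] ℚ̄, σ • Q = Q) (hQp : addOrderOf Q = p) (hℓ : ℓ.Prime) (hℓ3 : ℓ ≤ 3) :
    (ℓ : ℤ) ∣ W.Δ ∧ ¬ (ℓ : ℤ) ∣ W.c₄ ∧
      ∀ A : ValuationSubring ℚ̄, A.LiesOverPrime ℓ → ¬ W.InZeroComponentAt A Q := by
  have hℓp : ¬ ℓ ∣ p := fun h => by
    have := (Nat.prime_dvd_prime_iff_eq hℓ hp).1 h; omega
  have hcount : ∀ A : ValuationSubring ℚ̄, A.LiesOverPrime ℓ →
      ¬ ∀ k : ℕ, W.InZeroComponentAt A (k • Q) := fun A hA h => by
    have h1 := pred_le_sq hℓ hA hQ hQp hℓp h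
    have h2 := Nat.pow_le_pow_left hℓ3 2
    omega
  have hΔ : (ℓ : ℤ) ∣ W.Δ := by
    by_contra hgood
    obtain ⟨A, hA⟩ := exists_place hℓ
    exact hcount A hA fun k => inZeroComponentAt_of_good hℓ hA hgood _
  refine ⟨hΔ, not_dvd_c₄ hmin hp hp17 hQ hQp hℓ hΔ, fun A hA h => hcount A hA fun k => ?_⟩
  have hc := not_dvd_c₄ hmin hp hp17 hQ hQp hℓ hΔ
  induction k with
  | zero => rw [zero_nsmul]; exact inZeroComponentAt_zero
  | succ j ih => rw [succ_nsmul]; exact inZeroComponentAt_add hℓ hA hmin.1 hΔ hc ih h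

end Fermat.Agent.Mazur.EndGame
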