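import Mathlib
import Fermat.Agent.Mazur.EndGame.Semistable
import Fermat.Agent.EllLocal.Mult.Structure

/-!
# Local behaviour of a curve with a rational point of order `p ≥ 17`

Assuming the statement about the identity component (the third step of Mazur's argument):
* at every prime of bad reduction the point misses the identity component;
* above `p` some nonzero point of order `p` reduces to the origin;
* inertia cannot move a point by a nonzero multiple of the rational point.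
-/

set_option autoImplicit false

open Polynomial WeierstrassCurve
open scoped WeierstrassCurve.Affine

namespace Fermat.Agent.Mazur.EndGame

open Fermat.Agent.MultRed

local notation "ℚ̄" => AlgebraicClosure ℚ
set_option quotPrecheck false in
local notation "E(" W ")" => ((WeierstrassCurve.map W (Int.castRingHom ℚ))⁄ℚ̄).Point

/-- The statement of the third step: a rational point of order `p` outside the identity component
at two and three is outside it at every prime `ℓ ≠ p` of multiplicative reduction. -/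
def StepThree : Prop :=
  ∀ {p : ℕ}, p.Prime → p ∉ ({2, 3, 5, 7, 13} : Finset ℕ) →
    ∀ (W : WeierstrassCurve ℤ), W.Δ ≠ 0 →
    ∀ (Q : E(W)), (∀ σ : ℚ̄ ≃ₐ[ℚ] ℚ̄, σ • Q = Q) → addOrderOf Q = p →
    (2 : ℤ) ∣ W.Δ → ¬ (2 : ℤ) ∣ W.c₄ →
    (∀ A : ValuationSubring ℚ̄, A.LiesOverPrime 2 → ¬ W.InZeroComponentAt A Q) →
    (3 : ℤ) ∣ W.Δ → ¬ (3 : ℤ) ∣ W.c₄ →
    (∀ A : ValuationSubring ℚ̄, A.LiesOverPrime 3 → ¬ W.InZeroComponentAt A Q) →
    ∀ {ℓ : ℕ}, ℓ.Prime → ℓ ≠ p → (ℓ : ℤ) ∣ W.Δ → ¬ (ℓ : ℤ) ∣ W.c₄ →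
    ∀ (A : ValuationSubring ℚ̄), A.LiesOverPrime ℓ → ¬ W.InZeroComponentAt A Q

/-- A minimal model with a rational point of order `p ≥ 17`. -/
structure PointDatum (p : ℕ) (W : WeierstrassCurve ℤ) (Q : E(W)) : Prop where
  prime : p.Prime
  large : 17 ≤ p
  minimal : IsMinModel W
  fixed : ∀ σ : ℚ̄ ≃ₐ[ℚ] ℚ̄, σ • Q = Q
  order : addOrderOf Q = p

variable {p : ℕ} {W : WeierstrassCurve ℤ} {Q : E(W)} {A : ValuationSubring ℚ̄} {ℓ : ℕ}

lemma PointDatum.nsmul_eq_zero (D : PointDatum p W Q) : p • Q = 0 :=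
  D.order ▸ addOrderOf_nsmul_eq_zero Q

lemma PointDatum.ne_zero (D : PointDatum p W Q) : Q ≠ 0 := fun h => by
  have := D.order
  rw [h, addOrderOf_zero] at this
  exact D.prime.one_lt.ne this

lemma PointDatum.semistable (D : PointDatum p W Q) (hℓ : ℓ.Prime) (hΔ : (ℓ : ℤ) ∣ W.Δ) :
    ¬ (ℓ : ℤ) ∣ W.c₄ :=
  not_dvd_c₄ D.minimal D.prime D.large D.fixed D.order hℓ hΔ

lemma PointDatum.isMultAt (D : PointDatum p W Q) (hℓ : ℓ.Prime) (hA : A.LiesOverPrime ℓ)
    (hΔ : (ℓ : ℤ) ∣ W.Δ) : EllLocal.Mult.IsMultAt W A ℓ :=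
  ⟨hℓ, hA, D.minimal.1, hΔ, D.semistable hℓ hΔ⟩

lemma PointDatum.not_inE1 (D : PointDatum p W Q) (hℓ : ℓ.Prime) (hA : A.LiesOverPrime ℓ)
    {k : ℕ} (hk : InE1At W A (k • Q)) : k • Q = 0 :=
  eq_zero_of_inE1 hℓ hA D.prime (by have := D.large; omega) (fixed_nsmul D.fixed k)
    (by rw [smul_comm, D.nsmul_eq_zero, nsmul_zero]) hk

/-- Above `p` a nonzero point of order `p` reduces to the origin. -/
theorem PointDatum.exists_inE1 (D : PointDatum p W Q) (hA : A.LiesOverPrime p) :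
    ∃ R : E(W), R ≠ 0 ∧ p • R = 0 ∧ InE1At W A R := by
  have hp := D.prime
  by_cases hΔ : (p : ℤ) ∣ W.Δ
  swap
  · obtain ⟨R, h0, hR, hred⟩ :=
      EllLocal.exists_ne_zero_residueRed_eq_zero hp hA hΔ hp.ne_zero (dvd_refl p)
    exact ⟨R, h0, hR, (EllLocal.residueRed_eq_zero_iff hp hA hΔ R).1 hred⟩
  classical
  obtain ⟨N⟩ := exists_nodalData_at hp hA hΔ (D.semistable hp hΔ)
  have ha := nodalData_va_lt hA hΔ N
  have ha0 := nodalData_a_ne D.minimal.1 N
  have hodd := hp.odd_of_ne_two (by have := D.large; omega)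
  have := EllLocal.isAlgClosed_residueField A
  set WA : WeierstrassCurve A := ⟨1, 0, 0, 0, ⟨N.a, (A.valuation_le_one_iff _).1 ha.le⟩⟩ with hWA
  have hL : WA.map A.subtype = nodal N.a := by
    ext <;> simp [hWA, nodal, WeierstrassCurve.map]
  have hk : WA.map (IsLocalRing.residue A) = nodal (0 : IsLocalRing.ResidueField A) := by
    have : IsLocalRing.residue A ⟨N.a, (A.valuation_le_one_iff _).1 ha.le⟩ = 0 := by
      rw [IsLocalRing.residue_eq_zero_iff, A.valuation_lt_one_iff]; exact ha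
    ext <;> simp [hWA, nodal, WeierstrassCurve.map, this]
  have hne : (nodal (0 : IsLocalRing.ResidueField A)).preΨ' p ≠ 0 := fun h => by
    refine EllLocal.Mult.ΨSq_nodal_zero_ne_zero (k := IsLocalRing.ResidueField A) hp ?_
    rw [ΨSq_ofNat, h]
    simp
  obtain ⟨i, hi⟩ : ∃ i, ((nodal (0 : IsLocalRing.ResidueField A)).preΨ' p).coeff i ≠ 0 := by
    by_contra hc
    push Not at hc
    exact hne (Polynomial.ext fun i => by simpa using hc i)
  have hi1 : A.valuation (((nodal N.a).preΨ' p).coeff i) = 1 := by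
    rw [← hL, WeierstrassCurve.map_preΨ', coeff_map]
    rw [← hk, WeierstrassCurve.map_preΨ', coeff_map] at hi
    exact (residue_ne_zero_iff _).1 hi
  have hpQ : (p : ℚ̄) ≠ 0 := Nat.cast_ne_zero.2 hp.ne_zero
  obtain ⟨x, hx, hx1⟩ := exists_root_one_lt hi1 (by
    rw [(nodal N.a).leadingCoeff_preΨ' hpQ, if_neg (Nat.not_even_iff_odd.2 hodd)]
    exact vq_lt_one hA)
  have : (nodal N.a).toAffine.IsElliptic :=
    ⟨isUnit_iff_ne_zero.2 (nodal_Δ_ne_zero (v := A.valuation) ha0 ha)⟩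
  obtain ⟨y, hy⟩ := EllTorsion.exists_point (W := (nodal N.a).toAffine) x
  refine ⟨nodeMap N (.some x y hy), ?_, ?_, (nodeMap_inE1_iff N _).2 hx1⟩
  · rw [← map_zero (nodeMap N)]
    exact fun h => Affine.Point.some_ne_zero hy ((nodeMap_bijective N).1 h)
  · rw [← map_nsmul, (EllTorsion.preΨ'_eval_eq_zero_iff hy hodd).1 hx, map_zero]

/-- **The point misses the identity component** at every bad prime. -/
theorem PointDatum.not_inZero (D : PointDatum p W Q) (h3 : StepThree) (hℓ : ℓ.Prime)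
    (hA : A.LiesOverPrime ℓ) (hΔ : (ℓ : ℤ) ∣ W.Δ) : ¬ W.InZeroComponentAt A Q := by
  by_cases hℓp : ℓ = p
  swap
  · have hp13 : p ∉ ({2, 3, 5, 7, 13} : Finset ℕ) := by
      have := D.large; simp; omega
    obtain ⟨d2, c2, o2⟩ :=
      small_prime D.minimal D.prime D.large D.fixed D.order Nat.prime_two (by norm_num)
    obtain ⟨d3, c3, o3⟩ :=
      small_prime D.minimal D.prime D.large D.fixed D.order Nat.prime_three le_rfl
    exact h3 D.prime hp13 W D.minimal.1 Q D.fixed D.order (by exact_mod_cast d2)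
      (by exact_mod_cast c2) o2 (by exact_mod_cast d3) (by exact_mod_cast c3) o3 hℓ hℓp hΔ
      (D.semistable hℓ hΔ) A hA
  subst hℓp
  intro h0
  have hM := D.isMultAt hℓ hA hΔ
  obtain ⟨R, hR0, hRp, hR1⟩ := D.exists_inE1 hA
  obtain ⟨N⟩ := exists_nodalData_at hℓ hA hΔ hM.not_dvd
  have hcard : Nat.card (EllLocal.Mult.lineSub hM ℓ) = ℓ := by
    simpa using (EllLocal.Mult.natCard_lineSub hM hℓ 1 N).1
  have : Finite (EllLocal.Mult.lineSub hM ℓ) := EllLocal.Mult.finite_lineSub hM hℓ.ne_zero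
  have hle : AddSubgroup.zmultiples R ≤ EllLocal.Mult.lineSub hM ℓ :=
    AddSubgroup.zmultiples_le_of_mem ⟨hR1.inZeroComponentAt, hRp⟩
  have : Fact ℓ.Prime := ⟨hℓ⟩
  have hord : addOrderOf R = ℓ := addOrderOf_eq_prime hRp hR0
  have heq := AddSubgroup.eq_of_le_of_card_ge hle (by rw [hcard, Nat.card_zmultiples, hord])
  have hQ : Q ∈ AddSubgroup.zmultiples R := heq.ge ⟨h0, D.nsmul_eq_zero⟩
  rw [← (addOrderOf_pos_iff.1 (hord ▸ hℓ.pos)).mem_multiples_iff_mem_zmultiples] at hQ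
  obtain ⟨j, hj⟩ := hQ
  have hQ1 : InE1At W A ((1 : ℕ) • Q) := by
    rw [one_nsmul, ← hj]
    exact InE1.nsmul intCoeffs_curveQbar hR1 j
  exact D.ne_zero (by simpa using D.not_inE1 hℓ hA hQ1)

lemma PointDatum.not_inZero_nsmul (D : PointDatum p W Q) (h3 : StepThree) (hℓ : ℓ.Prime)
    (hA : A.LiesOverPrime ℓ) (hΔ : (ℓ : ℤ) ∣ W.Δ) {k : ℕ} (hk : k • Q ≠ 0) :
    ¬ W.InZeroComponentAt A (k • Q) :=
  not_inZeroComponentAt_nsmul hℓ hA D.minimal.1 hΔ (D.semistable hℓ hΔ) D.prime D.nsmul_eq_zero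
    (D.not_inZero h3 hℓ hA hΔ) hk

/-- **Inertia does not move a point by a nonzero multiple of `Q`.** -/
theorem PointDatum.inertia_smul_eq (D : PointDatum p W Q) (h3 : StepThree) (hℓ : ℓ.Prime)
    (hA : A.LiesOverPrime ℓ) {σ : ℚ̄ ≃ₐ[ℚ] ℚ̄} (hσ : σ ∈ A.inertiaSubgroupIn ℚ) {T : E(W)}
    {k : ℕ} (hT : σ • T - T = k • Q) : σ • T = T := by
  rw [← sub_eq_zero, hT]
  by_cases hΔ : (ℓ : ℤ) ∣ W.Δ
  · by_contra hk
    exact D.not_inZero_nsmul h3 hℓ hA hΔ hk
      (hT ▸ inertia_sub_inZeroComponentAt hℓ hA D.minimal.1 hΔ (D.semistable hℓ hΔ) hσ T)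
  · exact D.not_inE1 hℓ hA (hT ▸ inertia_sub_inE1 hσ (inZeroComponentAt_of_good hℓ hA hΔ T))

end Fermat.Agent.Mazur.EndGame
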