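import Mathlib
import Fermat.Agent.Mazur.EndGame.Local
import Fermat.Agent.EllFrobenius.Det
import Fermat.Prelude.Def_ExtCitation_AdmissibleExtension_v2

/-!
# The `p`-torsion is an admissible extension
-/

set_option autoImplicit false

open WeierstrassCurve
open scoped WeierstrassCurve.Affine

namespace Fermat.Agent.Mazur.EndGame

open Fermat.Agent.MultRed ExtCitation

local notation "ℚ̄" => AlgebraicClosure ℚ
set_option quotPrecheck false in
local notation "E(" W ")" => ((WeierstrassCurve.map W (Int.castRingHom ℚ))⁄ℚ̄).Point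

/-- The `p`-torsion. -/
abbrev torsV (W : WeierstrassCurve ℤ) (p : ℕ) : Type :=
  Submodule.torsionBy ℤ E(W) (p : ℤ)

local instance smulCommTors (W : WeierstrassCurve ℤ) (p : ℕ) :
    SMulCommClass (ℚ̄ ≃ₐ[ℚ] ℚ̄) (ZMod p) (torsV W p) :=
  ⟨fun σ c x => ZMod.map_smul (DistribSMul.toAddMonoidHom (torsV W p) σ) c x⟩

variable {p : ℕ} {W : WeierstrassCurve ℤ} {Q : E(W)}

lemma nsmul_coe_eq_zero (x : torsV W p) : p • (x : E(W)) = 0 := by
  have := (Submodule.mem_torsionBy_iff _ _).1 x.2
  rwa [natCast_zsmul] at this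

/-- A point killed by `p`, in the torsion module. -/
def toTors (R : E(W)) (h : p • R = 0) : torsV W p :=
  ⟨R, (Submodule.mem_torsionBy_iff _ _).2 (by rw [natCast_zsmul]; exact h)⟩

lemma coe_zmod_smul [NeZero p] (c : ZMod p) (x : torsV W p) :
    ((c • x : torsV W p) : E(W)) = c.val • (x : E(W)) := by
  conv_lhs => rw [← ZMod.natCast_zmod_val c, Nat.cast_smul_eq_nsmul]
  rfl

/-- A subgroup of points, inside the torsion module. -/
def subTors [NeZero p] (H : AddSubgroup E(W)) : Submodule (ZMod p) (torsV W p) where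
  carrier := {x | (x : E(W)) ∈ H}
  add_mem' := H.add_mem
  zero_mem' := H.zero_mem
  smul_mem' c x hx := by
    show ((c • x : torsV W p) : E(W)) ∈ H
    rw [coe_zmod_smul]
    exact H.nsmul_mem hx _

lemma natCard_torsV (hΔ : W.Δ ≠ 0) (hp : p ≠ 0) : Nat.card (torsV W p) = p ^ 2 :=
  haveI := isElliptic_map hΔ
  EllTorsion.natCard_torsionBy_rat (W.map (Int.castRingHom ℚ)) hp

lemma finrank_torsV [Fact p.Prime] (hΔ : W.Δ ≠ 0) :
    Module.finrank (ZMod p) (torsV W p) = 2 :=
  haveI := isElliptic_map hΔ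
  EllTorsion.finrank_torsionBy_rat (W.map (Int.castRingHom ℚ)) p

lemma finite_torsV [Fact p.Prime] (hΔ : W.Δ ≠ 0) : Finite (torsV W p) :=
  Nat.finite_of_card_ne_zero (by
    rw [natCard_torsV hΔ (Fact.out : p.Prime).ne_zero]
    exact pow_ne_zero _ (Fact.out : p.Prime).ne_zero)

/-- A subgroup not containing `Q` but containing a nonzero torsion point gives a complement. -/
lemma isCompl_subTors [Fact p.Prime] (hΔ : W.Δ ≠ 0) {q : torsV W p} (hq : q ≠ 0)
    {H : AddSubgroup E(W)} (hqH : (q : E(W)) ∉ H) {R : torsV W p} (hR : R ≠ 0)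
    (hRH : (R : E(W)) ∈ H) : IsCompl (Submodule.span (ZMod p) {q}) (subTors H) := by
  have := finite_torsV (p := p) hΔ
  have hd : Disjoint (Submodule.span (ZMod p) {q}) (subTors H) := by
    rw [disjoint_comm, Submodule.disjoint_span_singleton' hq]
    exact hqH
  refine ⟨hd, codisjoint_iff.2 (Submodule.eq_top_of_finrank_eq ?_)⟩
  have h1 : 1 ≤ Module.finrank (ZMod p) (subTors (p := p) H) :=
    Submodule.one_le_finrank_iff.2 ((Submodule.ne_bot_iff _).2 ⟨R, hRH, hR⟩)
  have h2 := Submodule.finrank_sup_add_finrank_inf_eq (Submodule.span (ZMod p) {q})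
    (subTors (p := p) H)
  rw [disjoint_iff.1 hd, finrank_bot, finrank_span_singleton hq] at h2
  have h3 := Submodule.finrank_le (Submodule.span (ZMod p) {q} ⊔ subTors (p := p) H)
  rw [finrank_torsV hΔ] at h3 ⊢
  omega

/-- The points reducing to the origin, as a subgroup. -/
noncomputable def e1Sub (W : WeierstrassCurve ℤ) (A : ValuationSubring ℚ̄) :
    AddSubgroup E(W) where
  carrier := {P | InE1At W A P}
  add_mem' := InE1At.add
  zero_mem' := inE1At_zero (W := W) (A := A)
  neg_mem' := InE1At.neg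

lemma smul_mem_e1Sub {A : ValuationSubring ℚ̄} {σ : ℚ̄ ≃ₐ[ℚ] ℚ̄}
    (hσ : σ ∈ A.decompositionSubgroup ℚ) {P : E(W)} (hP : P ∈ e1Sub W A) :
    σ • P ∈ e1Sub W A := by
  rcases P with _ | ⟨x, y, h⟩
  · exact inE1At_zero (W := W) (A := A)
  · obtain ⟨h', he⟩ := EllTorsion.smul_some σ h
    rw [he]
    show 1 < A.valuation (σ x)
    rw [decomp_isometry hσ]
    exact hP

/-- **Admissibility.** -/
theorem PointDatum.admissible [Fact p.Prime] (D : PointDatum p W Q) (h3 : StepThree) :
    IsAdmissibleExtensionCts p (torsV W p)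
      (Submodule.span (ZMod p) {toTors Q D.nsmul_eq_zero}) := by
  have hp := D.prime
  have := finite_torsV (p := p) D.minimal.1
  have hE := isElliptic_map D.minimal.1
  set q := toTors Q D.nsmul_eq_zero with hq
  have hq0 : q ≠ 0 := fun h => D.ne_zero (congrArg Subtype.val h)
  have hfix : ∀ σ : ℚ̄ ≃ₐ[ℚ] ℚ̄, σ • q = q := fun σ => Subtype.ext (D.fixed σ)
  set C := Submodule.span (ZMod p) {q} with hC
  have hfixC : ∀ σ : ℚ̄ ≃ₐ[ℚ] ℚ̄, ∀ x ∈ C, σ • x = x := by
    intro σ x hx
    obtain ⟨c, rfl⟩ := Submodule.mem_span_singleton.1 hx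
    rw [smul_comm, hfix]
  refine
    { stable := fun σ x hx => by rw [hfixC σ x hx]; exact hx
      fixed_sub := hfixC
      cyclo_quot := fun σ x => ?_
      card_sub := ?_
      card_total := natCard_torsV D.minimal.1 hp.ne_zero
      unramified_outside := fun ℓ hℓ hℓp A hA σ hσ x => ?_
      locally_split := fun A hA => ?_
      open_kernel := ?_ }
  · obtain ⟨T, hT⟩ : ∃ T : torsV W p, T ∉ C := by
      by_contra hc
      push Not at hc
      have : C = ⊤ := eq_top_iff.2 fun x _ => hc x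
      have h1 : Module.finrank (ZMod p) C = 1 := finrank_span_singleton hq0
      rw [this, finrank_top, finrank_torsV D.minimal.1] at h1
      omega
    have hli : LinearIndependent (ZMod p) ![q, T] := by
      rw [LinearIndependent.pair_iff' hq0]
      intro c hc
      exact hT (hc ▸ Submodule.smul_mem _ c (Submodule.mem_span_singleton_self q))
    set b := basisOfLinearIndependentOfCardEqFinrank hli
      (by rw [Fintype.card_fin, finrank_torsV D.minimal.1]) with hb
    have hb0 : b 0 = q := by simp [hb]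
    have hb1 : b 1 = T := by simp [hb]
    set f := Affine.Point.galoisRepModuleEnd (K := ℚ̄) ℚ (W.map (Int.castRingHom ℚ)) p σ with hf
    have hfs : ∀ z : torsV W p, f z = σ • z := fun z => rfl
    have hd : (cycloExp p σ : ZMod p) = b.repr (σ • T) 1 := by
      have h := EllFrobenius.det_galoisRepModuleEnd_rat (W.map (Int.castRingHom ℚ)) p
        (card_rootsOfUnity_eq_self p) σ
      rw [← LinearMap.det_toMatrix b, Matrix.det_fin_two, LinearMap.toMatrix_apply,
        LinearMap.toMatrix_apply, LinearMap.toMatrix_apply, LinearMap.toMatrix_apply,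
        hb0, hb1] at h
      rw [← hf, hfs q, hfs T, hfix σ] at h
      have e0 : b.repr q 0 = 1 := by rw [← hb0, b.repr_self]; simp
      have e1 : b.repr q 1 = 0 := by rw [← hb0, b.repr_self]; simp
      rw [e0, e1, one_mul, mul_zero, sub_zero] at h
      rw [h, cycloExp, ZMod.natCast_zmod_val]
    have hx : ∀ z : torsV W p, z = b.repr z 0 • q + b.repr z 1 • T := fun z => by
      conv_lhs => rw [← b.sum_repr z, Fin.sum_univ_two, hb0, hb1]
    have hmain : σ • T - (cycloExp p σ : ZMod p) • T ∈ C := by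
      rw [hd]
      nth_rw 1 [hx (σ • T)]
      rw [add_sub_cancel_right]
      exact Submodule.smul_mem _ _ (Submodule.mem_span_singleton_self q)
    rw [hx x, smul_add, smul_comm σ, smul_comm σ, hfix, smul_add, smul_comm _ (b.repr x 0),
      smul_comm _ (b.repr x 1) T,
      show ∀ a b c d : torsV W p, a + b - (c + d) = (a - c) + (b - d) from fun a b c d => by abel,
      ← smul_sub, ← smul_sub]
    exact add_mem (Submodule.smul_mem _ _ (sub_mem (Submodule.mem_span_singleton_self q)
      (Submodule.smul_mem _ _ (Submodule.mem_span_singleton_self q))))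
      (Submodule.smul_mem _ _ hmain)
  · rw [Module.natCard_eq_pow_finrank (K := ZMod p), finrank_span_singleton hq0, pow_one,
      Nat.card_zmod]
  · refine Subtype.ext ?_
    have hpl : ¬ ℓ ∣ p := fun h => hℓp ((Nat.prime_dvd_prime_iff_eq hℓ hp).1 h)
    show σ • (x : E(W)) = x
    by_cases hΔ : (ℓ : ℤ) ∣ W.Δ
    swap
    · exact inertia_smul_eq_of_good hℓ hA hΔ hσ hpl (nsmul_coe_eq_zero x)
    have hM := D.isMultAt hℓ hA hΔ
    obtain ⟨N⟩ := exists_nodalData_at hℓ hA hΔ hM.not_dvd
    obtain ⟨R, hR, hR0⟩ : ∃ R ∈ EllLocal.Mult.lineSub hM p, R ≠ 0 := by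
      by_contra hc
      push Not at hc
      have h1 : Nat.card (EllLocal.Mult.lineSub hM p) = p := by
        simpa using (EllLocal.Mult.natCard_lineSub hM hp 1 N).1
      rw [(AddSubgroup.eq_bot_iff_forall _).2 hc, AddSubgroup.card_bot] at h1
      exact hp.one_lt.ne h1
    have hcompl : IsCompl C (subTors (EllLocal.Mult.e0Sub hM)) :=
      isCompl_subTors D.minimal.1 hq0 (D.not_inZero h3 hℓ hA hΔ) (R := toTors R hR.2)
        (fun h => hR0 (congrArg Subtype.val h)) hR.1
    obtain ⟨c, hc, z, hz, rfl⟩ :=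
      Submodule.mem_sup.1 (hcompl.sup_eq_top.ge (Submodule.mem_top (x := x)))
    show σ • ((c : E(W)) + (z : E(W))) = (c : E(W)) + (z : E(W))
    rw [Affine.Point.algEquiv_smul_def, map_add, ← Affine.Point.algEquiv_smul_def,
      ← Affine.Point.algEquiv_smul_def, inertia_smul_eq_of_inZeroComponentAt hℓ hA hσ hz hpl (nsmul_coe_eq_zero z)]
    exact congrArg (fun w : E(W) => w + (z : E(W))) (congrArg Subtype.val (hfixC σ c hc))
  · obtain ⟨R, hR0, hRp, hR1⟩ := D.exists_inE1 hA
    refine ⟨subTors (e1Sub W A), fun σ hσ y hy => smul_mem_e1Sub hσ hy,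
      isCompl_subTors D.minimal.1 hq0 ?_ (R := toTors R hRp)
        (fun h => hR0 (congrArg Subtype.val h)) hR1⟩
    intro h
    exact D.ne_zero (by
      simpa using D.not_inE1 hp hA (k := 1) (by rw [one_nsmul]; exact h))
  · have : Algebra.IsAlgebraic ℚ ℚ̄ := AlgebraicClosure.isAlgebraic ℚ
    exact EllTorsion.isOpen_fixing_torsion ℚ ℚ̄ (W.map (Int.castRingHom ℚ)) hp.ne_zero

/-- From the vanishing of extensions: a stable complement. -/
theorem PointDatum.exists_stable_complement [Fact p.Prime] (D : PointDatum p W Q) (h3 : StepThree)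
    (h14 : ExtVanishingCts p) :
    ∃ N : AddSubgroup E(W), (∀ σ : ℚ̄ ≃ₐ[ℚ] ℚ̄, ∀ z ∈ N, σ • z ∈ N) ∧
      (∀ z ∈ N, p • z = 0) ∧ (∀ z : E(W), p • z = 0 → ∃ i : ℕ, z - i • Q ∈ N) ∧
      (∀ i : ℕ, i • Q ∈ N → i • Q = 0) := by
  have : NeZero p := ⟨D.prime.ne_zero⟩
  obtain ⟨C', hstab, hcompl⟩ := h14 (torsV W p) _ (D.admissible h3)
  set q := toTors Q D.nsmul_eq_zero with hq
  refine ⟨C'.toAddSubgroup.map ((Submodule.torsionBy ℤ E(W) (p : ℤ)).subtype.toAddMonoidHom : torsV W p →+ E(W)),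
    ?_, ?_, ?_, ?_⟩
  · rintro σ _ ⟨z, hz, rfl⟩
    exact ⟨σ • z, hstab σ z hz, rfl⟩
  · rintro _ ⟨z, -, rfl⟩
    exact nsmul_coe_eq_zero (W := W) z
  · intro z hz
    obtain ⟨c, hc, l, hl, hcl⟩ :=
      Submodule.mem_sup.1 (hcompl.sup_eq_top.ge (Submodule.mem_top (x := toTors z hz)))
    obtain ⟨a, rfl⟩ := Submodule.mem_span_singleton.1 hc
    refine ⟨a.val, ⟨l, hl, ?_⟩⟩
    show (l : E(W)) = z - a.val • Q
    have := congrArg Subtype.val hcl
    simp only [Submodule.coe_add, coe_zmod_smul] at this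
    rw [show z = a.val • Q + (l : E(W)) from this.symm]
    abel
  · rintro i ⟨z, hz, hzi⟩
    have hzC : z ∈ Submodule.span (ZMod p) {q} := by
      rw [show z = (i : ZMod p) • q from Subtype.ext (by
        rw [Nat.cast_smul_eq_nsmul]; exact hzi)]
      exact Submodule.smul_mem _ _ (Submodule.mem_span_singleton_self q)
    have h0 := Submodule.mem_bot (ZMod p) |>.1 (hcompl.disjoint.le_bot ⟨hzC, hz⟩)
    rw [← hzi, h0]
    rfl

end Fermat.Agent.Mazur.EndGame
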