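import Mathlib
import Fermat.Agent.Mazur.EndGame.Admissible
import Fermat.Agent.Isogeny.Cofixed
import Fermat.Agent.BigImage.Transvection
import Fermat.Agent.FreyReducible.InertiaLift
import Fermat.Agent.MultRed.Frey
import Fermat.Prelude.Def_FLTPrelim_CofixedLine

/-!
# Rational points of unbounded `p`-power order, and the contradiction
-/

set_option autoImplicit false

open WeierstrassCurve
open scoped WeierstrassCurve.Affine

namespace Fermat.Agent.Mazur.EndGame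

open Fermat.Agent.MultRed ExtCitation

local notation "ℚ̄" => AlgebraicClosure ℚ
set_option quotPrecheck false in
local notation "E(" W ")" => ((WeierstrassCurve.map W (Int.castRingHom ℚ))⁄ℚ̄).Point

/-- A minimal model, good at `ℓ₀`, with a rational point of order `p ^ k`. -/
def HasPow (p ℓ₀ k : ℕ) : Prop :=
  ∃ (W : WeierstrassCurve ℤ) (Q : E(W)), IsMinModel W ∧ ¬ (ℓ₀ : ℤ) ∣ W.Δ ∧
    (∀ σ : ℚ̄ ≃ₐ[ℚ] ℚ̄, σ • Q = Q) ∧ addOrderOf Q = p ^ k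

variable {p ℓ₀ : ℕ}

lemma smul_add_point {W : WeierstrassCurve ℤ} (σ : ℚ̄ ≃ₐ[ℚ] ℚ̄) (a b : E(W)) :
    σ • (a + b) = σ • a + σ • b :=
  (Affine.Point.map σ.toAlgHom).map_add a b

/-- Good reduction passes along an isogeny of `p`-power kernel. -/
theorem good_transfer {W₀ W₁ : WeierstrassCurve ℤ} {Q₁ : E(W₁)} (D : PointDatum p W₁ Q₁)
    (h0 : W₀.Δ ≠ 0) (hℓ : ℓ₀.Prime) (hgood : ¬ (ℓ₀ : ℤ) ∣ W₀.Δ)
    (ψ : E(W₀) →+ E(W₁)) (heq : ∀ (σ : ℚ̄ ≃ₐ[ℚ] ℚ̄) (P : E(W₀)), ψ (σ • P) = σ • ψ P)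
    (hker : ∀ T, ψ T = 0 → p • T = 0) : ¬ (ℓ₀ : ℤ) ∣ W₁.Δ := by
  intro hΔ
  obtain ⟨r, hr, hrp⟩ := Nat.exists_infinite_primes (ℓ₀ + p + padicValInt ℓ₀ W₁.Δ + 3)
  obtain ⟨A, hA⟩ := exists_place hℓ
  have hc₄ := D.semistable hℓ hΔ
  have hord : ¬ r ∣ padicValInt ℓ₀ W₁.Δ := by
    intro h
    rcases (padicValInt ℓ₀ W₁.Δ).eq_zero_or_pos with h0 | hpos
    · have := Fact.mk hℓ
      rcases padicValInt.eq_zero_iff.1 h0 with h1 | h1 | h1
      · exact hℓ.one_lt.ne' h1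
      · exact D.minimal.1 h1
      · exact h1 hΔ
    · have := Nat.le_of_dvd hpos h; omega
  obtain ⟨σ, hσ, P, hP, hne⟩ :=
    BigImage.exists_inertia_moves_torsion hℓ hA D.minimal.1 hΔ hc₄ hrp (by omega) hord
  have hrℓ : ¬ ℓ₀ ∣ r := fun h => by
    have := (Nat.prime_dvd_prime_iff_eq hℓ hrp).1 h; omega
  let f : {T : E(W₀) // r • T = 0} → {T : E(W₁) // r • T = 0} :=
    fun T => ⟨ψ T.1, by rw [← map_nsmul, T.2, map_zero]⟩
  have hf : Function.Injective f := by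
    intro S T h
    have hs : ψ (S.1 - T.1) = 0 := by
      rw [map_sub, sub_eq_zero]; exact congrArg Subtype.val h
    have h1 := hker _ hs
    have h2 : r • (S.1 - T.1) = 0 := by rw [nsmul_sub, S.2, T.2, sub_zero]
    have h3 := Nat.dvd_gcd (addOrderOf_dvd_of_nsmul_eq_zero h2)
      (addOrderOf_dvd_of_nsmul_eq_zero h1)
    rw [(Nat.coprime_primes hrp D.prime).2 (by omega), Nat.dvd_one,
      AddMonoid.addOrderOf_eq_one_iff, sub_eq_zero] at h3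
    exact Subtype.ext h3
  have := EllLocal.Mult.finite_torsion_set D.minimal.1 hrp.ne_zero (W := W₁)
  obtain ⟨⟨T, hT⟩, hTP⟩ := (hf.bijective_of_nat_card_le (by
    rw [EllLocal.Mult.natCard_torsion_set h0 hrp.ne_zero,
      EllLocal.Mult.natCard_torsion_set D.minimal.1 hrp.ne_zero])).2 ⟨P, hP⟩
  have e : ψ T = P := congrArg Subtype.val hTP
  exact hne (by rw [← e, ← heq, inertia_smul_eq_of_good hℓ hA hgood hσ hrℓ hT])

/-- **The inductive step.** -/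
theorem hasPow_succ (h3 : StepThree) [Fact p.Prime] (h14 : ExtVanishingCts p) (hp17 : 17 ≤ p)
    (hℓ : ℓ₀.Prime) {k : ℕ} (h : HasPow p ℓ₀ (k + 1)) : HasPow p ℓ₀ (k + 2) := by
  obtain ⟨W, Q, hmin, hgood, hQ, hord⟩ := h
  have hp : p.Prime := Fact.out
  have := isElliptic_map hmin.1
  set Q₁ := p ^ k • Q with hQ₁
  have hQ₁p : addOrderOf Q₁ = p := by
    rw [hQ₁, addOrderOf_nsmul' _ (pow_ne_zero k hp.ne_zero), hord, pow_succ,
      Nat.gcd_mul_right_left, Nat.mul_div_cancel_left _ (pow_pos hp.pos k)]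
  have D : PointDatum p W Q₁ := ⟨hp, hp17, hmin, fixed_nsmul hQ _, hQ₁p⟩
  obtain ⟨N, hNstab, hNp, hNdec, hNQ⟩ := D.exists_stable_complement h3 h14
  have h2 : ∀ z ∈ N, z + z = 0 → z = 0 := by
    intro z hz h2z
    obtain ⟨j, hj⟩ := hp.odd_of_ne_two (by omega)
    have := hNp z hz
    rwa [hj, succ_nsmul, mul_nsmul, two_nsmul, h2z, nsmul_zero, zero_add] at this
  obtain ⟨W', hW', φ, hφ, hker⟩ := Isogeny.exists_quotient (W.map (Int.castRingHom ℚ)) N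
    (Isogeny.torsion_finite hp.ne_zero N hNp) h2 hNstab
  obtain ⟨W₁, hmin₁, e, he⟩ := exists_minModel W'
  set ψ : E(W) →+ E(W₁) := e.toAddMonoidHom.comp φ with hψ
  have hψeq : ∀ (σ : ℚ̄ ≃ₐ[ℚ] ℚ̄) (P : E(W)), ψ (σ • P) = σ • ψ P := fun σ P => by
    simp only [hψ, AddMonoidHom.comp_apply, AddEquiv.coe_toAddMonoidHom, hφ, he]
  have hψ0 : ∀ T, ψ T = 0 ↔ T ∈ N := fun T => by
    simp only [hψ, AddMonoidHom.comp_apply, AddEquiv.coe_toAddMonoidHom,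
      EmbeddingLike.map_eq_zero_iff]
    rw [← AddMonoidHom.mem_ker, hker]
  set Q' := ψ Q₁ with hQ'
  have hQ'ne : Q' ≠ 0 := fun h => D.ne_zero (by
    simpa using hNQ 1 (by rw [one_nsmul]; exact (hψ0 _).1 h))
  have hQ'fix : ∀ σ : ℚ̄ ≃ₐ[ℚ] ℚ̄, σ • Q' = Q' := fun σ => by rw [hQ', ← hψeq, D.fixed]
  have hQ'p : p • Q' = 0 := by rw [hQ', ← map_nsmul, D.nsmul_eq_zero, map_zero]
  have D' : PointDatum p W₁ Q' :=
    ⟨hp, hp17, hmin₁, hQ'fix, addOrderOf_eq_prime hQ'p hQ'ne⟩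
  have hgood₁ : ¬ (ℓ₀ : ℤ) ∣ W₁.Δ :=
    good_transfer D' hmin.1 hℓ hgood ψ hψeq fun T hT => hNp T ((hψ0 T).1 hT)
  obtain ⟨R, hR⟩ := EllTorsion.nsmul_surjective_baseChange (W.map (Int.castRingHom ℚ)) ℚ̄
    hp.ne_zero Q
  change p • R = Q at hR
  set x := ψ R with hx
  have hxk : p ^ (k + 1) • x = Q' := by
    rw [hx, ← map_nsmul, pow_succ', mul_nsmul, hR, hQ', hQ₁]
  have hx0 : p ^ (k + 2) • x = 0 := by
    rw [pow_succ, mul_nsmul, hxk]; exact hQ'p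
  have hmove : ∀ σ : ℚ̄ ≃ₐ[ℚ] ℚ̄, ∃ i : ℕ, σ • x - x = i • Q' := by
    intro σ
    obtain ⟨i, hi⟩ := hNdec (σ • R - R) (by
      rw [nsmul_sub, show p • σ • R = σ • (p • R) from (smul_comm σ p R).symm, hR, hQ, sub_self])
    refine ⟨i, ?_⟩
    have := (hψ0 _).2 hi
    rw [map_sub, map_sub, map_nsmul, hψeq, sub_eq_zero] at this
    exact this
  -- the stabiliser of `x` is everything
  set H := MulAction.stabilizer (ℚ̄ ≃ₐ[ℚ] ℚ̄) x with hH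
  have hnormal : H.Normal := by
    refine ⟨fun n hn g => ?_⟩
    rw [hH, MulAction.mem_stabilizer_iff] at hn ⊢
    obtain ⟨i, hi⟩ := hmove g⁻¹
    have hgx : g⁻¹ • x = x + i • Q' := by rw [← hi]; abel
    rw [mul_smul, mul_smul, hgx, smul_add_point, hn, fixed_nsmul hQ'fix i n, ← hgx, smul_inv_smul]
  have htop : H = ⊤ := by
    have : Algebra.IsAlgebraic ℚ ℚ̄ := AlgebraicClosure.isAlgebraic ℚ
    have := isElliptic_map hmin₁.1
    obtain ⟨F₀, hF₀, hfix⟩ := EllTorsion.exists_finiteDimensional_fixing_torsion ℚ ℚ̄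
      (W₁.map (Int.castRingHom ℚ)) (pow_ne_zero (k + 2) hp.ne_zero)
    refine FreyReducible.subgroup_eq_top_of_inertia_le H ⟨F₀, hF₀, fun σ hσ => ?_⟩
      fun q hq => ?_
    · have := hfix σ (fun z hz => (IntermediateField.mem_fixingSubgroup_iff _ σ).1 hσ z hz)
        ⟨x, (Submodule.mem_torsionBy_iff _ _).2 (by rw [natCast_zsmul]; exact hx0)⟩
      exact congrArg Subtype.val this
    · obtain ⟨A, hA⟩ := exists_place hq
      refine ⟨A, hA, fun σ hσ => ?_⟩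
      obtain ⟨i, hi⟩ := hmove σ
      exact D'.inertia_smul_eq h3 hq hA hσ hi
  refine ⟨W₁, x, hmin₁, hgood₁, fun σ => ?_, ?_⟩
  · have : σ ∈ H := by rw [htop]; exact Subgroup.mem_top σ
    exact this
  · exact addOrderOf_eq_prime_pow (by rw [hxk]; exact hQ'ne) hx0

/-- **The start**: a cofixed line gives the first curve. -/
theorem hasPow_one [Fact p.Prime] (hp17 : 17 ≤ p) (hℓ : ℓ₀.Prime) {W₀ : WeierstrassCurve ℤ}
    (h0 : W₀.Δ ≠ 0) (hgood : ¬ (ℓ₀ : ℤ) ∣ W₀.Δ)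
    (h : Affine.Point.HasGaloisStableCofixedLine (K := ℚ̄) ℚ
      (W₀.map (Int.castRingHom ℚ)) p) : HasPow p ℓ₀ 1 := by
  have hp : p.Prime := Fact.out
  have := isElliptic_map h0
  obtain ⟨N, hstab, -, htop, hcof⟩ := h
  set N' : AddSubgroup E(W₀) := N.toAddSubgroup.map
    ((Submodule.torsionBy ℤ E(W₀) (p : ℤ)).subtype.toAddMonoidHom : torsV W₀ p →+ E(W₀)) with hN'
  have hNp : ∀ z ∈ N', p • z = 0 := by
    rintro _ ⟨z, -, rfl⟩; exact nsmul_coe_eq_zero (W := W₀) z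
  have h2 : ∀ z ∈ N', z + z = 0 → z = 0 := by
    intro z hz h2z
    obtain ⟨j, hj⟩ := hp.odd_of_ne_two (by omega)
    have := hNp z hz
    rwa [hj, succ_nsmul, mul_nsmul, two_nsmul, h2z, nsmul_zero, zero_add] at this
  obtain ⟨W', hW', φ, hφ, hker⟩ := Isogeny.exists_quotient (W₀.map (Int.castRingHom ℚ)) N'
    (Isogeny.torsion_finite hp.ne_zero N' hNp) h2 (by
      rintro σ _ ⟨z, hz, rfl⟩
      exact ⟨σ • z, hstab σ z hz, rfl⟩)
  obtain ⟨W₁, hmin₁, e, he⟩ := exists_minModel W'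
  set ψ : E(W₀) →+ E(W₁) := e.toAddMonoidHom.comp φ with hψ
  have hψeq : ∀ (σ : ℚ̄ ≃ₐ[ℚ] ℚ̄) (P : E(W₀)), ψ (σ • P) = σ • ψ P := fun σ P => by
    simp only [hψ, AddMonoidHom.comp_apply, AddEquiv.coe_toAddMonoidHom, hφ, he]
  have hψ0 : ∀ T, ψ T = 0 ↔ T ∈ N' := fun T => by
    simp only [hψ, AddMonoidHom.comp_apply, AddEquiv.coe_toAddMonoidHom,
      EmbeddingLike.map_eq_zero_iff]
    rw [← AddMonoidHom.mem_ker, hker]
  obtain ⟨n, hn⟩ : ∃ n : torsV W₀ p, n ∉ N := by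
    by_contra hc
    push Not at hc
    exact htop (eq_top_iff.2 fun z _ => hc z)
  have hne : ψ (n : E(W₀)) ≠ 0 := fun h => by
    obtain ⟨z, hz, hzn⟩ := (hψ0 _).1 h
    exact hn (Subtype.ext hzn ▸ hz)
  have hfix : ∀ σ : ℚ̄ ≃ₐ[ℚ] ℚ̄, σ • ψ (n : E(W₀)) = ψ n := fun σ => by
    rw [← hψeq, ← sub_eq_zero, ← map_sub]
    exact (hψ0 _).2 ⟨σ • n - n, hcof σ n, rfl⟩
  have hord : addOrderOf (ψ (n : E(W₀))) = p :=
    addOrderOf_eq_prime (by rw [← map_nsmul, nsmul_coe_eq_zero, map_zero]) hne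
  exact ⟨W₁, _, hmin₁,
    good_transfer ⟨hp, hp17, hmin₁, hfix, hord⟩ h0 hℓ hgood ψ hψeq
      fun T hT => hNp T ((hψ0 T).1 hT),
    hfix, by rw [hord, pow_one]⟩

/-- **No cofixed line.** -/
theorem not_hasCofixedLine_of_stepThree (h3 : StepThree)
    (h14 : ∀ (q : ℕ) [Fact q.Prime], 3 ≤ q → ExtVanishingCts q)
    (p : ℕ) (hp : p.Prime) (hp17 : 17 ≤ p) (W₀ : WeierstrassCurve ℤ) (h0 : W₀.Δ ≠ 0) :
    ¬ Affine.Point.HasGaloisStableCofixedLine (K := ℚ̄) ℚ (W₀.map (Int.castRingHom ℚ)) p := by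
  intro h
  have := Fact.mk hp
  obtain ⟨ℓ₀, hℓ₀, hℓ⟩ := Nat.exists_infinite_primes (W₀.Δ.natAbs + p + 1)
  have hgood : ¬ (ℓ₀ : ℤ) ∣ W₀.Δ := fun hd => by
    have := Nat.le_of_dvd (Int.natAbs_pos.2 h0) (Int.natCast_dvd.1 hd)
    omega
  have hall : ∀ k, HasPow p ℓ₀ (k + 1) := fun k => by
    induction k with
    | zero => exact hasPow_one hp17 hℓ h0 hgood h
    | succ k ih => exact hasPow_succ h3 (h14 p (by omega)) hp17 hℓ ih
  obtain ⟨W, Q, hmin, hgW, hQ, hord⟩ := hall (ℓ₀ ^ 2 + 1)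
  obtain ⟨A, hA⟩ := exists_place hℓ
  have hnd : ¬ ℓ₀ ∣ p ^ (ℓ₀ ^ 2 + 1 + 1) := fun hd => by
    have := (Nat.prime_dvd_prime_iff_eq hℓ hp).1 (hℓ.dvd_of_dvd_pow hd)
    omega
  have h1 := pred_le_sq hℓ hA hQ hord hnd fun k => inZeroComponentAt_of_good hℓ hA hgW _
  have h2 := Nat.lt_pow_self hp.one_lt (n := ℓ₀ ^ 2 + 1 + 1)
  omega

/-- **S12 from S14 and S15.** -/
theorem frey_no_cofixed_large_of (h3 : StepThree)
    (h14 : ∀ (q : ℕ) [Fact q.Prime], 3 ≤ q → ExtVanishingCts q)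
    (P : FreyPackage) (hp : 17 ≤ P.p) :
    ¬ Affine.Point.HasGaloisStableCofixedLine (K := ℚ̄) ℚ P.freyCurve P.p := by
  rw [← MultRed.freyCurveInt_map]
  exact not_hasCofixedLine_of_stepThree h3 h14 P.p P.pp hp _ (MultRed.freyCurveInt_Δ_ne_zero P)

end Fermat.Agent.Mazur.EndGame
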