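import Fermat.Agent.S10
import Fermat.Agent.S11
import Fermat.Agent.S13
import Fermat.Prelude.Def_FLTPrelim_GaloisRep

/-!
# Irreducibility of the Frey representation from the three exclusions
-/

set_option autoImplicit false
open WeierstrassCurve WeierstrassCurve.Affine WeierstrassCurve.Affine.Point

namespace Fermat.Agent.Mazur.EndGame

/-- Irreducibility, given the exclusion for `p ≥ 17`. -/
theorem mazur_frey_of
    (hlarge : ∀ P : FreyPackage, 17 ≤ P.p →
      ¬ HasGaloisStableCofixedLine (K := AlgebraicClosure ℚ) ℚ P.freyCurve P.p)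
    (P : FreyPackage) :
    GaloisRepIsIrreducible (K := AlgebraicClosure ℚ) ℚ P.freyCurve P.p := by
  by_contra h
  have hline := S13.result P h
  have h5 := P.hp5
  by_cases hp : 17 ≤ P.p
  · exact hlarge P hp hline
  have hpp := P.pp
  have h5' : P.p = 5 ∨ P.p = 7 ∨ P.p = 11 ∨ P.p = 13 := by
    push Not at hp
    revert hpp h5 hp
    generalize P.p = n
    intro hpp h5 hp
    interval_cases n <;> tauto
  rcases h5' with h' | h' | h' | h'
  · exact S10.result P (Or.inl h') hline
  · exact S10.result P (Or.inr (Or.inl h')) hline
  · exact S11.result P h' hline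
  · exact S10.result P (Or.inr (Or.inr h')) hline

end Fermat.Agent.Mazur.EndGame
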